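import Mathlib

set_option autoImplicit false

/-!
# S55 / local norm index: common definitions

`lnNorm n s`, `lnDiv s` : the "norm" `x ↦ ∏_{i<n} s^i x` and the "difference" `x ↦ s x / x`
endomorphisms of a commutative group attached to an endomorphism `s`.
`lnUnits B L` : the image of `Bˣ` in `Lˣ`.  `lnAut σ` : the action of `σ` on `Lˣ`.
-/

namespace Fermat.Agent.S55

section group

variable {X : Type*} [CommGroup X]

/-- The "norm" endomorphism `x ↦ ∏_{i<n} s^i x`. -/
def lnNorm (n : ℕ) (s : X →* X) : X →* X where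
  toFun x := ∏ i ∈ Finset.range n, s^[i] x
  map_one' := by simp [iterate_map_one]
  map_mul' x y := by simp [iterate_map_mul, Finset.prod_mul_distrib]

/-- The endomorphism `x ↦ s x / x`. -/
def lnDiv (s : X →* X) : X →* X where
  toFun x := s x / x
  map_one' := by simp
  map_mul' x y := by simp [mul_div_mul_comm]

theorem lnNorm_apply (n : ℕ) (s : X →* X) (x : X) :
    lnNorm n s x = ∏ i ∈ Finset.range n, s^[i] x := rfl

theorem lnDiv_apply (s : X →* X) (x : X) : lnDiv s x = s x / x := rfl

end group

section field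

variable (B L : Type*) [CommRing B] [Field L] [Algebra B L]

/-- The image of `Bˣ` in `Lˣ`. -/
def lnUnits : Subgroup Lˣ := (Units.map (algebraMap B L : B →* L)).range

variable {L} {K : Type*} [Field K] [Algebra K L]

/-- The action of a `K`-automorphism of `L` on `Lˣ`. -/
def lnAut (σ : L ≃ₐ[K] L) : Lˣ →* Lˣ := Units.map (σ : L →* L)

theorem lnAut_apply (σ : L ≃ₐ[K] L) (x : Lˣ) : ((lnAut σ x : Lˣ) : L) = σ (x : L) := rfl

end field

end Fermat.Agent.S55
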