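import Mathlib

set_option autoImplicit false

/-!
# S55 / local norm index: successive approximation in a complete filtered commutative group
-/

namespace Fermat.Agent.S55

section approx

variable {G : Type*} [CommGroup G]

/-- Successive approximation: a homomorphism of a complete filtered commutative group which is
"surjective on graded pieces" relative to a closed subgroup `H` is surjective onto `H`. -/
theorem ln_approx_surj (V : ℕ → Subgroup G) (H : Subgroup G) (φ : G →* G)
    (hcomplete : ∀ v : ℕ → G, (∀ j, v j ∈ V j) →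
      ∃ p ∈ V 0, ∀ j, (∏ i ∈ Finset.range j, v i)⁻¹ * p ∈ V j)
    (hsep : ∀ u : G, (∀ j, u ∈ V j) → u = 1)
    (hφV : ∀ j, ∀ v ∈ V j, φ v ∈ V j) (hφH : ∀ v, φ v ∈ H)
    (hgr : ∀ j, ∀ w ∈ V j, w ∈ H → ∃ v ∈ V j, w / φ v ∈ V (j + 1)) :
    ∀ w ∈ V 0, w ∈ H → ∃ v ∈ V 0, φ v = w := by
  intro w hw0 hwH
  classical
  -- the choice function
  have hgr' : ∀ j : ℕ, ∀ w : G, ∃ v : G, (w ∈ V j ∧ w ∈ H) → (v ∈ V j ∧ w / φ v ∈ V (j + 1)) := by
    intro j w
    by_cases h : w ∈ V j ∧ w ∈ H
    · obtain ⟨v, hv, hv'⟩ := hgr j w h.1 h.2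
      exact ⟨v, fun _ => ⟨hv, hv'⟩⟩
    · exact ⟨1, fun h' => absurd h' h⟩
  choose c hc using hgr'
  -- the sequence of remainders
  let W : ℕ → G := fun j => Nat.rec w (fun j wj => wj / φ (c j wj)) j
  have hW0 : W 0 = w := rfl
  have hWs : ∀ j, W (j + 1) = W j / φ (c j (W j)) := fun j => rfl
  have hWmem : ∀ j, W j ∈ V j ∧ W j ∈ H := by
    intro j
    induction j with
    | zero => exact ⟨hw0, hwH⟩
    | succ j ih =>
      rw [hWs]
      exact ⟨(hc j (W j) ih).2, H.div_mem ih.2 (hφH _)⟩
  let v : ℕ → G := fun j => c j (W j)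
  have hv : ∀ j, v j ∈ V j := fun j => (hc j (W j) (hWmem j)).1
  have hprod : ∀ j, W j * φ (∏ i ∈ Finset.range j, v i) = w := by
    intro j
    induction j with
    | zero => simp [hW0]
    | succ j ih =>
      rw [Finset.prod_range_succ, map_mul, hWs, ← ih]
      have : ∀ a b c : G, a / c * (b * c) = a * b := by
        intro a b c
        rw [div_mul_eq_mul_div, mul_div_assoc, mul_div_assoc, div_self', mul_one]
      exact this _ _ _
  obtain ⟨p, hp0, hp⟩ := hcomplete v hv
  refine ⟨p, hp0, ?_⟩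
  have : w / φ p = 1 := by
    apply hsep
    intro j
    have h1 : w / φ p = W j / φ ((∏ i ∈ Finset.range j, v i)⁻¹ * p) := by
      rw [← hprod j, map_mul, map_inv]
      have : ∀ a b c : G, a * b / c = a / (b⁻¹ * c) := by
        intro a b c
        rw [div_eq_div_iff_mul_eq_mul]
        simp only [mul_assoc, mul_inv_cancel_left]
      exact this _ _ _
    rw [h1]
    exact (V j).div_mem (hWmem j).1 (hφV j _ (hp j))
  exact (div_eq_one.mp this).symm

end approx

end Fermat.Agent.S55
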