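import Mathlib
import Fermat.Agent.S55.LocalNorm.Defs
import Fermat.Agent.S55.LocalNorm.Approx

set_option autoImplicit false
set_option linter.unusedSectionVars false

/-!
# S55 / local norm index: the unit group `1 + M` of a complete multiplicatively small lattice
has trivial `Ĥ⁰` and `H¹` (abstract ring-level statement).
-/

namespace Fermat.Agent.S55

section general

variable {X : Type*} [CommGroup X]

theorem lnNorm_map (n : ℕ) (s : X →* X) (hs : ∀ x, s^[n] x = x) (x : X) :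
    lnNorm n s (s x) = lnNorm n s x := by
  simp only [lnNorm_apply]
  have h1 := Finset.prod_range_succ' (fun i => s^[i] x) n
  have h2 := Finset.prod_range_succ (fun i => s^[i] x) n
  rw [h1] at h2
  simp only [Function.iterate_zero, id_eq, hs x] at h2
  have h3 : ∀ i, s^[i] (s x) = s^[i + 1] x := fun i => by
    rw [Function.iterate_succ_apply]
  simp only [h3]
  exact mul_right_cancel h2

theorem map_lnNorm (n : ℕ) (s : X →* X) (hs : ∀ x, s^[n] x = x) (x : X) :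
    s (lnNorm n s x) = lnNorm n s x := by
  calc s (lnNorm n s x) = lnNorm n s (s x) := by
        simp only [lnNorm_apply, map_prod]
        refine Finset.prod_congr rfl fun i _ => ?_
        rw [← Function.iterate_succ_apply' s i x, Function.iterate_succ_apply]
    _ = lnNorm n s x := lnNorm_map n s hs x

theorem lnDiv_lnNorm (n : ℕ) (s : X →* X) (hs : ∀ x, s^[n] x = x) (x : X) :
    lnDiv s (lnNorm n s x) = 1 := by
  rw [lnDiv_apply, map_lnNorm n s hs, div_self']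

theorem lnNorm_lnDiv (n : ℕ) (s : X →* X) (hs : ∀ x, s^[n] x = x) (x : X) :
    lnNorm n s (lnDiv s x) = 1 := by
  rw [lnDiv_apply, map_div, lnNorm_map n s hs, div_self']

theorem lnDiv_eq_one_iff (s : X →* X) (x : X) : lnDiv s x = 1 ↔ s x = x := by
  rw [lnDiv_apply, div_eq_one]

theorem lnl_norm_mem (n : ℕ) (s : X →* X) (V : Subgroup X) (hV : ∀ v ∈ V, s v ∈ V) {x : X}
    (hx : x ∈ V) : lnNorm n s x ∈ V := by
  rw [lnNorm_apply]
  have key : ∀ i : ℕ, s^[i] x ∈ V := by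
    intro i
    induction i with
    | zero => simpa using hx
    | succ i ih => rw [Function.iterate_succ_apply']; exact hV _ ih
  exact V.prod_mem fun i _ => key i

theorem lnl_div_mem (s : X →* X) (V : Subgroup X) (hV : ∀ v ∈ V, s v ∈ V) {x : X}
    (hx : x ∈ V) : lnDiv s x ∈ V := by
  rw [lnDiv_apply]
  exact V.div_mem (hV _ hx) hx

end general

variable {B : Type*} [CommRing B] [IsDomain B]

/-- The hypotheses on a lattice `M ⊆ B`: multiplicatively small (`M M ⊆ ϖ M`), `ϖ`-adically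
complete and separated, `1 + M ⊆ Bˣ`, stable under the automorphism `s` of order dividing `n`,
with `M ≃ A[G]` expressed through the exactness properties `H0` and `H1`. -/
structure LnLatticeData (ϖ : B) (M : AddSubgroup B) (s : B ≃+* B) (n : ℕ) : Prop where
  pi_ne : ϖ ≠ 0
  pi_mem : ∀ x ∈ M, ϖ * x ∈ M
  mul_mem : ∀ x ∈ M, ∀ y ∈ M, ∃ z ∈ M, x * y = ϖ * z
  complete : ∀ f : ℕ → B, (∀ j, f j ∈ M) → (∀ j, ∃ z ∈ M, f (j + 1) - f j = ϖ ^ j * z) →
    ∃ ℓ ∈ M, ∀ j, ∃ z ∈ M, ℓ - f j = ϖ ^ j * z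
  sep : ∀ x, (∀ j, ∃ z ∈ M, x = ϖ ^ j * z) → x = 0
  unit : ∀ x ∈ M, IsUnit (1 + x)
  s_mem : ∀ x ∈ M, s x ∈ M
  s_pi : s ϖ = ϖ
  s_pow : ∀ x, s^[n] x = x
  H0 : ∀ x ∈ M, s x = x → ∃ y ∈ M, ∑ i ∈ Finset.range n, s^[i] y = x
  H1 : ∀ x ∈ M, (∃ z ∈ M, ∑ i ∈ Finset.range n, s^[i] x = ϖ * z) →
    ∃ t ∈ M, ∃ z ∈ M, x = (s t - t) + ϖ * z

namespace LnLatticeData

variable {ϖ : B} {M : AddSubgroup B} {s : B ≃+* B} {n : ℕ} (h : LnLatticeData ϖ M s n)
include h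

theorem mul_mem' {x y : B} (hx : x ∈ M) (hy : y ∈ M) : x * y ∈ M := by
  obtain ⟨z, hz, e⟩ := h.mul_mem x hx y hy
  rw [e]; exact h.pi_mem z hz

theorem pow_mul_mem (j : ℕ) {x : B} (hx : x ∈ M) : ϖ ^ j * x ∈ M := by
  induction j with
  | zero => simpa using hx
  | succ j ih => rw [pow_succ', mul_assoc]; exact h.pi_mem _ ih

theorem iterate_mem (i : ℕ) {x : B} (hx : x ∈ M) : s^[i] x ∈ M := by
  induction i with
  | zero => simpa using hx
  | succ i ih => rw [Function.iterate_succ_apply']; exact h.s_mem _ ih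

theorem pow_succ_eq (x : B) (hx : x ∈ M) (k : ℕ) : ∃ z ∈ M, x ^ (k + 1) = ϖ ^ k * z := by
  induction k with
  | zero => exact ⟨x, hx, by simp⟩
  | succ k ih =>
    obtain ⟨z, hz, e⟩ := ih
    obtain ⟨z', hz', e'⟩ := h.mul_mem z hz x hx
    refine ⟨z', hz', ?_⟩
    rw [pow_succ, e, mul_assoc, e', pow_succ, mul_assoc]

/-- `1 + M` is closed under inverses. -/
theorem exists_inv (x : B) (hx : x ∈ M) : ∃ y ∈ M, (1 + x) * (1 + y) = 1 := by
  -- partial sums of the geometric series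
  let f : ℕ → B := fun k => ∑ i ∈ Finset.range (k + 1), (-x) ^ i - 1
  have hnx : -x ∈ M := M.neg_mem hx
  have hpow : ∀ i, (-x) ^ (i + 1) ∈ M := by
    intro i
    obtain ⟨z, hz, e⟩ := h.pow_succ_eq (-x) hnx i
    rw [e]; exact h.pow_mul_mem i hz
  have hf : ∀ k, f k ∈ M := by
    intro k
    simp only [f]
    rw [Finset.sum_range_succ', pow_zero, add_sub_cancel_right]
    exact M.sum_mem fun i _ => hpow i
  have hstep : ∀ j, ∃ z ∈ M, f (j + 1) - f j = ϖ ^ j * z := by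
    intro j
    obtain ⟨z, hz, e⟩ := h.pow_succ_eq (-x) hnx j
    refine ⟨z, hz, ?_⟩
    simp only [f]
    rw [Finset.sum_range_succ _ (j + 1), ← e]
    ring
  obtain ⟨ℓ, hℓ, hℓ'⟩ := h.complete f hf hstep
  refine ⟨ℓ, hℓ, ?_⟩
  have key : (1 + x) * (1 + ℓ) - 1 = 0 := by
    apply h.sep
    intro j
    obtain ⟨z, hz, e⟩ := hℓ' j
    obtain ⟨z', hz', e'⟩ := h.pow_succ_eq (-x) hnx j
    have hgeom : (1 + x) * (1 + f j) = 1 - (-x) ^ (j + 1) := by
      simp only [f]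
      rw [add_sub_cancel]
      have := mul_neg_geom_sum (-x) (j + 1)
      rwa [sub_neg_eq_add] at this
    refine ⟨-z' + z + x * z, M.add_mem (M.add_mem (M.neg_mem hz') hz) (h.mul_mem' hx hz), ?_⟩
    have : (1 + x) * (1 + ℓ) - 1 = ((1 + x) * (1 + f j) - 1) + (1 + x) * (ℓ - f j) := by ring
    rw [this, hgeom, e, e']
    ring
  exact sub_eq_zero.mp key

/-- The filtration `V j = 1 + ϖ^j M` of the unit group. -/
def V (j : ℕ) : Subgroup Bˣ where
  carrier := {u | ∃ z ∈ M, (u : B) = 1 + ϖ ^ j * z}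
  one_mem' := ⟨0, M.zero_mem, by simp⟩
  mul_mem' := by
    rintro u v ⟨a, ha, ea⟩ ⟨b, hb, eb⟩
    refine ⟨a + b + ϖ ^ j * (a * b),
      M.add_mem (M.add_mem ha hb) (h.pow_mul_mem j (h.mul_mem' ha hb)), ?_⟩
    rw [Units.val_mul, ea, eb]; ring
  inv_mem' := by
    rintro u ⟨a, ha, ea⟩
    obtain ⟨y, hy, e⟩ := h.exists_inv (ϖ ^ j * a) (h.pow_mul_mem j ha)
    have huinv : ((u⁻¹ : Bˣ) : B) = 1 + y := by
      have h1 : (u : B) * (1 + y) = 1 := by rw [ea]; exact e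
      have h2 : (u : B) * ((u⁻¹ : Bˣ) : B) = 1 := by
        rw [← Units.val_mul, mul_inv_cancel, Units.val_one]
      have hu : (u : B) ≠ 0 := u.ne_zero
      exact mul_left_cancel₀ hu (h2.trans h1.symm)
    refine ⟨-a - a * y, M.sub_mem (M.neg_mem ha) (h.mul_mem' ha hy), ?_⟩
    rw [huinv]
    have : y = -(ϖ ^ j * a) * (1 + y) := by
      have : (1 + ϖ ^ j * a) * (1 + y) - 1 = 0 := by rw [e, sub_self]
      linear_combination this
    calc 1 + y = 1 + -(ϖ ^ j * a) * (1 + y) := by rw [← this]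
      _ = 1 + ϖ ^ j * (-a - a * y) := by ring

theorem mem_V {j : ℕ} {u : Bˣ} : u ∈ h.V j ↔ ∃ z ∈ M, (u : B) = 1 + ϖ ^ j * z := Iff.rfl

theorem V_succ_le (j : ℕ) : h.V (j + 1) ≤ h.V j := by
  rintro u ⟨z, hz, e⟩
  exact ⟨ϖ * z, h.pi_mem z hz, by rw [e, pow_succ, mul_assoc]⟩

theorem V_le_zero (j : ℕ) : h.V j ≤ h.V 0 := by
  induction j with
  | zero => exact le_rfl
  | succ j ih => exact (h.V_succ_le j).trans ih

/-- elements of `V 0` are `1 + y`, `y ∈ M` -/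
theorem mem_V_zero {u : Bˣ} : u ∈ h.V 0 ↔ ∃ y ∈ M, (u : B) = 1 + y := by
  rw [mem_V]; simp

/-- multiplication by an element of `V 0` preserves `M` -/
theorem mul_mem_of_mem_V {u : Bˣ} (hu : u ∈ h.V 0) {x : B} (hx : x ∈ M) : x * (u : B) ∈ M := by
  obtain ⟨y, hy, e⟩ := h.mem_V_zero.mp hu
  rw [e, mul_add, mul_one]
  exact M.add_mem hx (h.mul_mem' hx hy)

/-- the unit `1 + x` for `x ∈ M` -/
noncomputable def unitOf (x : B) (hx : x ∈ M) : Bˣ := (h.unit x hx).unit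

theorem coe_unitOf (x : B) (hx : x ∈ M) : ((h.unitOf x hx : Bˣ) : B) = 1 + x :=
  IsUnit.unit_spec _

theorem unitOf_mem_V (j : ℕ) (z : B) (hz : z ∈ M) :
    h.unitOf (ϖ ^ j * z) (h.pow_mul_mem j hz) ∈ h.V j :=
  ⟨z, hz, h.coe_unitOf _ _⟩

theorem V_sep (u : Bˣ) (hu : ∀ j, u ∈ h.V j) : u = 1 := by
  have : (u : B) - 1 = 0 := by
    apply h.sep
    intro j
    obtain ⟨z, hz, e⟩ := hu j
    exact ⟨z, hz, by rw [e]; ring⟩
  exact Units.ext (by rw [Units.val_one]; exact sub_eq_zero.mp this)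

/-- if `u = p * (1 + ϖ^j z)` with `p ∈ V 0`, then `p⁻¹ u ∈ V j` -/
theorem inv_mul_mem_V {j : ℕ} {p u : Bˣ} (hp : p ∈ h.V 0) {z : B} (hz : z ∈ M)
    (e : (u : B) = (p : B) + ϖ ^ j * z) : p⁻¹ * u ∈ h.V j := by
  have hpinv : p⁻¹ ∈ h.V 0 := (h.V 0).inv_mem hp
  refine ⟨z * ((p⁻¹ : Bˣ) : B), h.mul_mem_of_mem_V hpinv hz, ?_⟩
  rw [Units.val_mul, e, mul_add, ← Units.val_mul, inv_mul_cancel, Units.val_one]
  ring

theorem V_complete (v : ℕ → Bˣ) (hv : ∀ j, v j ∈ h.V j) :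
    ∃ p ∈ h.V 0, ∀ j, (∏ i ∈ Finset.range j, v i)⁻¹ * p ∈ h.V j := by
  let P : ℕ → Bˣ := fun j => ∏ i ∈ Finset.range j, v i
  have hP : ∀ j, P j ∈ h.V 0 := fun j =>
    (h.V 0).prod_mem fun i _ => h.V_le_zero i (hv i)
  let f : ℕ → B := fun j => (P j : B) - 1
  have hf : ∀ j, f j ∈ M := by
    intro j
    obtain ⟨y, hy, e⟩ := h.mem_V_zero.mp (hP j)
    simp only [f]; rw [e, add_sub_cancel_left]; exact hy
  have hstep : ∀ j, ∃ z ∈ M, f (j + 1) - f j = ϖ ^ j * z := by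
    intro j
    obtain ⟨z, hz, e⟩ := hv j
    refine ⟨z * (P j : B), h.mul_mem_of_mem_V (hP j) hz, ?_⟩
    have : (P (j + 1) : B) = (P j : B) * (v j : B) := by
      simp only [P]; rw [Finset.prod_range_succ, Units.val_mul]
    simp only [f]
    rw [this, e]; ring
  obtain ⟨ℓ, hℓ, hℓ'⟩ := h.complete f hf hstep
  refine ⟨h.unitOf ℓ hℓ, h.mem_V_zero.mpr ⟨ℓ, hℓ, h.coe_unitOf _ _⟩, fun j => ?_⟩
  obtain ⟨z, hz, e⟩ := hℓ' j
  refine h.inv_mul_mem_V (hP j) hz ?_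
  rw [h.coe_unitOf]
  simp only [f] at e
  linear_combination e

/-- the action of `s` on units -/
def sU (_h : LnLatticeData ϖ M s n) : Bˣ →* Bˣ := Units.map (s : B →* B)

theorem coe_sU (u : Bˣ) : ((h.sU u : Bˣ) : B) = s (u : B) := rfl

theorem coe_sU_iterate (i : ℕ) (u : Bˣ) : (((h.sU)^[i] u : Bˣ) : B) = s^[i] (u : B) := by
  induction i with
  | zero => rfl
  | succ i ih => rw [Function.iterate_succ_apply', Function.iterate_succ_apply', coe_sU, ih]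

theorem sU_pow (u : Bˣ) : (h.sU)^[n] u = u :=
  Units.ext (by rw [h.coe_sU_iterate, h.s_pow])

theorem s_pow_mul (j : ℕ) (z : B) : s (ϖ ^ j * z) = ϖ ^ j * s z := by
  rw [map_mul, map_pow, h.s_pi]

theorem s_iterate_pow_mul (i j : ℕ) (z : B) : s^[i] (ϖ ^ j * z) = ϖ ^ j * s^[i] z := by
  induction i with
  | zero => rfl
  | succ i ih => rw [Function.iterate_succ_apply', Function.iterate_succ_apply', ih, h.s_pow_mul]

theorem s_iterate_one_add (i j : ℕ) (z : B) :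
    s^[i] (1 + ϖ ^ j * z) = 1 + ϖ ^ j * s^[i] z := by
  have : ∀ (i : ℕ) (a b : B), s^[i] (a + b) = s^[i] a + s^[i] b := by
    intro i a b
    induction i with
    | zero => rfl
    | succ i ih => rw [Function.iterate_succ_apply', Function.iterate_succ_apply',
        Function.iterate_succ_apply', ih, map_add]
  have h1 : ∀ i : ℕ, s^[i] (1 : B) = 1 := by
    intro i
    induction i with
    | zero => rfl
    | succ i ih => rw [Function.iterate_succ_apply', ih, map_one]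
  rw [this, h1, h.s_iterate_pow_mul]

theorem sU_mem_V {j : ℕ} {u : Bˣ} (hu : u ∈ h.V j) : h.sU u ∈ h.V j := by
  obtain ⟨z, hz, e⟩ := hu
  exact ⟨s z, h.s_mem z hz, by rw [coe_sU, e, map_add, map_one, h.s_pow_mul]⟩

/-- expansion of a product `∏ (1 + ϖ^j y_i)` -/
theorem prod_one_add (j : ℕ) (y : ℕ → B) (hy : ∀ i, y i ∈ M) (k : ℕ) :
    ∃ r ∈ M, ∏ i ∈ Finset.range k, (1 + ϖ ^ j * y i) =
      1 + ϖ ^ j * (∑ i ∈ Finset.range k, y i) + ϖ ^ (j + 1) * r := by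
  induction k with
  | zero => exact ⟨0, M.zero_mem, by simp⟩
  | succ k ih =>
    obtain ⟨r, hr, e⟩ := ih
    have hS : ∑ i ∈ Finset.range k, y i ∈ M := M.sum_mem fun i _ => hy i
    obtain ⟨z, hz, ez⟩ := h.mul_mem _ hS (y k) (hy k)
    refine ⟨r + ϖ ^ j * z + ϖ ^ j * (r * y k),
      M.add_mem (M.add_mem hr (h.pow_mul_mem j hz)) (h.pow_mul_mem j (h.mul_mem' hr (hy k))), ?_⟩
    rw [Finset.prod_range_succ, e, Finset.sum_range_succ]
    have : (1 + ϖ ^ j * ∑ i ∈ Finset.range k, y i + ϖ ^ (j + 1) * r) * (1 + ϖ ^ j * y k) =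
        1 + ϖ ^ j * (∑ i ∈ Finset.range k, y i + y k) + ϖ ^ (j + 1) * r +
          ϖ ^ j * ϖ ^ j * ((∑ i ∈ Finset.range k, y i) * y k) +
          ϖ ^ (j + 1) * ϖ ^ j * (r * y k) := by ring
    rw [this, ez]
    ring

/-- expansion of the norm of `1 + ϖ^j y` -/
theorem coe_lnNorm_unit (j : ℕ) (u : Bˣ) (y : B) (hy : y ∈ M) (e : (u : B) = 1 + ϖ ^ j * y) :
    ∃ r ∈ M, ((lnNorm n h.sU u : Bˣ) : B) =
      1 + ϖ ^ j * (∑ i ∈ Finset.range n, s^[i] y) + ϖ ^ (j + 1) * r := by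
  obtain ⟨r, hr, er⟩ := h.prod_one_add j (fun i => s^[i] y) (fun i => h.iterate_mem i hy) n
  refine ⟨r, hr, ?_⟩
  rw [lnNorm_apply, Units.coe_prod, ← er]
  refine Finset.prod_congr rfl fun i _ => ?_
  rw [h.coe_sU_iterate, e, h.s_iterate_one_add]

theorem pow_mul_cancel (j : ℕ) {a b : B} (e : ϖ ^ j * a = ϖ ^ j * b) : a = b :=
  mul_left_cancel₀ (pow_ne_zero j h.pi_ne) e

/-- graded surjectivity for `Ĥ⁰` -/
theorem graded_H0 (j : ℕ) (w : Bˣ) (hw : w ∈ h.V j) (hfix : w ∈ (lnDiv h.sU).ker) :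
    ∃ v ∈ h.V j, w / lnNorm n h.sU v ∈ h.V (j + 1) := by
  obtain ⟨x, hx, ex⟩ := hw
  have hsw : h.sU w = w := (lnDiv_eq_one_iff _ _).mp hfix
  have hsx : s x = x := by
    have h1 : s (w : B) = (w : B) := by rw [← coe_sU h, hsw]
    rw [ex, map_add, map_one, h.s_pow_mul] at h1
    exact h.pow_mul_cancel j (add_left_cancel h1)
  obtain ⟨y, hy, eT⟩ := h.H0 x hx hsx
  let v : Bˣ := h.unitOf (ϖ ^ j * y) (h.pow_mul_mem j hy)
  have hv : v ∈ h.V j := h.unitOf_mem_V j y hy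
  refine ⟨v, hv, ?_⟩
  obtain ⟨r, hr, er⟩ := h.coe_lnNorm_unit j v y hy (h.coe_unitOf _ _)
  have hNv : lnNorm n h.sU v ∈ h.V 0 :=
    h.V_le_zero j (lnl_norm_mem n h.sU (h.V j) (fun _ hu => h.sU_mem_V hu) hv)
  have := h.inv_mul_mem_V (j := j + 1) (p := lnNorm n h.sU v) (u := w) hNv (M.neg_mem hr)
    (by rw [er, eT, ex]; ring)
  rwa [div_eq_mul_inv, mul_comm]

/-- graded surjectivity for `H¹` -/
theorem graded_H1 (j : ℕ) (w : Bˣ) (hw : w ∈ h.V j) (hN : w ∈ (lnNorm n h.sU).ker) :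
    ∃ v ∈ h.V j, w / lnDiv h.sU v ∈ h.V (j + 1) := by
  obtain ⟨x, hx, ex⟩ := hw
  obtain ⟨r, hr, er⟩ := h.coe_lnNorm_unit j w x hx ex
  have hN1 : ((lnNorm n h.sU w : Bˣ) : B) = 1 := by
    rw [MonoidHom.mem_ker.mp hN, Units.val_one]
  have hT : ∑ i ∈ Finset.range n, s^[i] x = ϖ * (-r) := by
    have h1 : ϖ ^ j * (∑ i ∈ Finset.range n, s^[i] x) = ϖ ^ j * (ϖ * (-r)) := by
      rw [hN1] at er
      linear_combination (-1 : B) * er
    exact h.pow_mul_cancel j h1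
  obtain ⟨t, ht, z, hz, e⟩ := h.H1 x hx ⟨-r, M.neg_mem hr, hT⟩
  let v : Bˣ := h.unitOf (ϖ ^ j * t) (h.pow_mul_mem j ht)
  have hv : v ∈ h.V j := h.unitOf_mem_V j t ht
  have hcv : (v : B) = 1 + ϖ ^ j * t := h.coe_unitOf _ _
  refine ⟨v, hv, ?_⟩
  obtain ⟨z'', hz'', exz⟩ := h.mul_mem x hx t ht
  have hsv : h.sU v ∈ h.V 0 := h.V_le_zero j (h.sU_mem_V hv)
  -- w * v = s v + ϖ^(j+1) * (z + ϖ^j z'')
  have hkey : ((w * v : Bˣ) : B) = ((h.sU v : Bˣ) : B) + ϖ ^ (j + 1) * (z + ϖ ^ j * z'') := by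
    rw [Units.val_mul, coe_sU, hcv, ex, map_add, map_one, h.s_pow_mul]
    have : (1 + ϖ ^ j * x) * (1 + ϖ ^ j * t) =
        1 + ϖ ^ j * (x + t) + ϖ ^ j * ϖ ^ j * (x * t) := by ring
    rw [this, exz, e]
    ring
  have := h.inv_mul_mem_V (j := j + 1) (p := h.sU v) (u := w * v) hsv
    (M.add_mem hz (h.pow_mul_mem j hz'')) hkey
  have e2 : w / lnDiv h.sU v = (h.sU v)⁻¹ * (w * v) := by
    rw [lnDiv_apply, div_div_eq_mul_div, div_eq_mul_inv, mul_comm]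
  rwa [e2]

/-- `Ĥ⁰(1 + M) = 1` : every `s`-fixed element of `1 + M` is a norm from `1 + M`. -/
theorem H0_trivial (w : Bˣ) (hw : w ∈ h.V 0) (hfix : h.sU w = w) :
    ∃ v ∈ h.V 0, lnNorm n h.sU v = w := by
  refine ln_approx_surj h.V (lnDiv h.sU).ker (lnNorm n h.sU) h.V_complete h.V_sep
    (fun j v hv => lnl_norm_mem n h.sU (h.V j) (fun _ hu => h.sU_mem_V hu) hv)
    (fun v => MonoidHom.mem_ker.mpr (lnDiv_lnNorm n h.sU h.sU_pow v))
    h.graded_H0 w hw (MonoidHom.mem_ker.mpr ((lnDiv_eq_one_iff _ _).mpr hfix))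

/-- `H¹(1 + M) = 1` : every element of `1 + M` of norm one is of the form `s v / v`. -/
theorem H1_trivial (w : Bˣ) (hw : w ∈ h.V 0) (hN : lnNorm n h.sU w = 1) :
    ∃ v ∈ h.V 0, lnDiv h.sU v = w := by
  refine ln_approx_surj h.V (lnNorm n h.sU).ker (lnDiv h.sU) h.V_complete h.V_sep
    (fun j v hv => lnl_div_mem h.sU (h.V j) (fun _ hu => h.sU_mem_V hu) hv)
    (fun v => MonoidHom.mem_ker.mpr (lnNorm_lnDiv n h.sU h.sU_pow v))
    h.graded_H1 w hw (MonoidHom.mem_ker.mpr hN)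

end LnLatticeData

end Fermat.Agent.S55
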