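import Mathlib
import Fermat.Agent.S55.LocalNorm.Defs

set_option autoImplicit false

/-!
# S55 / local norm index, leaf LN3a: an integral normal basis lattice

`A ⊆ B` discrete valuation rings with fraction fields `K ⊆ L`, `L / K` finite Galois, `B` the
integral closure of `A` in `L`.  There are `θ ∈ B` and `0 ≠ d ∈ A` such that the conjugates of `θ`
are linearly independent over `K` and `d B ⊆ ⊕ A τθ`.
-/

namespace Fermat.Agent.S55

open IsLocalRing

section setting

variable {A B : Type*} {K L : Type} [CommRing A] [IsDomain A] [IsDiscreteValuationRing A]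
  [CommRing B] [IsDomain B] [IsDiscreteValuationRing B]
  [Field K] [Field L] [Algebra A K] [IsFractionRing A K] [Algebra B L] [IsFractionRing B L]
  [Algebra A B] [Algebra K L] [Algebra A L] [IsScalarTower A B L] [IsScalarTower A K L]
  [IsIntegralClosure B A L] [FiniteDimensional K L] [IsGalois K L]

theorem ln_exists_normal_lattice :
    ∃ (θ : B) (d : A), d ≠ 0 ∧
      LinearIndependent K (fun τ : L ≃ₐ[K] L => τ (algebraMap B L θ)) ∧
      ∀ b : B, ∃ a : (L ≃ₐ[K] L) → A,
        d • b = ∑ τ : L ≃ₐ[K] L, a τ • galRestrict A K L B τ θ := by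
  classical
  -- the normal basis, scaled to be integral
  have halg : IsAlgebraic A (IsGalois.normalBasis K L 1) := by
    have h1 : Algebra.IsAlgebraic A K := IsLocalization.isAlgebraic K (nonZeroDivisors A)
    have h2 : Algebra.IsAlgebraic A L := Algebra.IsAlgebraic.trans A K L
    exact Algebra.IsAlgebraic.isAlgebraic _
  obtain ⟨y, hy0, hy⟩ := halg.exists_integral_multiple
  obtain ⟨θ, hθ⟩ := (IsIntegralClosure.isIntegral_iff (A := B)).1 hy
  have hyK : algebraMap A K y ≠ 0 := by
    rwa [Ne, map_eq_zero_iff _ (IsFractionRing.injective A K)]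
  have hconj : ∀ τ : L ≃ₐ[K] L, τ (algebraMap B L θ) =
      (Units.mk0 _ hyK : Kˣ) • IsGalois.normalBasis K L τ := by
    intro τ
    rw [hθ, Units.smul_def, Units.val_mk0,
      ← IsScalarTower.algebraMap_smul K y (IsGalois.normalBasis K L 1), map_smul]
    congr 1
    exact (IsGalois.normalBasis_apply τ).symm
  let bas : Module.Basis (L ≃ₐ[K] L) K L :=
    (IsGalois.normalBasis K L).unitsSMul fun _ => Units.mk0 _ hyK
  have hbas : ∀ τ, bas τ = τ (algebraMap B L θ) := by
    intro τ
    rw [hconj, Module.Basis.unitsSMul_apply]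
  have hli : LinearIndependent K (fun τ : L ≃ₐ[K] L => τ (algebraMap B L θ)) := by
    have := bas.linearIndependent
    convert this using 1
    funext τ
    exact (hbas τ).symm
  -- `B` is a finite `A`-module
  have : Module.Finite A B := IsIntegralClosure.finite A K L B
  obtain ⟨S, hS⟩ := (Module.finite_def (R := A) (M := B)).1 inferInstance
  -- a common denominator for the coordinates of the generators
  let coords : Finset K := (S ×ˢ (Finset.univ : Finset (L ≃ₐ[K] L))).image
    fun p => bas.repr (algebraMap B L p.1) p.2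
  obtain ⟨⟨d, hd⟩, hdint⟩ := IsLocalization.exist_integer_multiples_of_finset
    (nonZeroDivisors A) coords
  have hd0 : d ≠ 0 := nonZeroDivisors.ne_zero hd
  refine ⟨θ, d, hd0, hli, ?_⟩
  -- the lattice
  let Λ : Submodule A B := Submodule.span A (Set.range fun τ : L ≃ₐ[K] L => galRestrict A K L B τ θ)
  have hinj : Function.Injective (algebraMap B L) := IsFractionRing.injective B L
  have hgen : ∀ s ∈ S, d • s ∈ Λ := by
    intro s hs
    have hcoef : ∀ τ : L ≃ₐ[K] L, ∃ a : A, algebraMap A K a = d • bas.repr (algebraMap B L s) τ := by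
      intro τ
      have hmem : bas.repr (algebraMap B L s) τ ∈ coords :=
        Finset.mem_image.2 ⟨(s, τ), Finset.mem_product.2 ⟨hs, Finset.mem_univ _⟩, rfl⟩
      obtain ⟨a, ha⟩ := hdint _ hmem
      exact ⟨a, ha⟩
    choose a ha using hcoef
    have hsum : d • s = ∑ τ : L ≃ₐ[K] L, a τ • galRestrict A K L B τ θ := by
      apply hinj
      rw [Algebra.smul_def, map_mul, map_sum, ← IsScalarTower.algebraMap_apply]
      have h1 : algebraMap B L s = ∑ τ : L ≃ₐ[K] L, bas.repr (algebraMap B L s) τ • bas τ :=
        (bas.sum_repr _).symm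
      conv_lhs => rw [h1]
      rw [Finset.mul_sum]
      refine Finset.sum_congr rfl fun τ _ => ?_
      rw [Algebra.smul_def (a τ), map_mul, ← IsScalarTower.algebraMap_apply A B L,
        algebraMap_galRestrict_apply, ← hbas τ, IsScalarTower.algebraMap_apply A K L (a τ), ha τ,
        Algebra.smul_def d, map_mul, ← IsScalarTower.algebraMap_apply A K L, Algebra.smul_def]
      ring
    rw [hsum]
    exact Submodule.sum_mem _ fun τ _ =>
      Submodule.smul_mem _ _ (Submodule.subset_span ⟨τ, rfl⟩)
  intro b
  have hb : b ∈ Submodule.span A (S : Set B) := by rw [hS]; exact Submodule.mem_top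
  have hmem : d • b ∈ Λ := by
    refine Submodule.span_induction (p := fun x _ => d • x ∈ Λ) ?_ ?_ ?_ ?_ hb
    · intro x hx
      exact hgen x hx
    · simp
    · intro x y _ _ hx hy
      rw [smul_add]
      exact Λ.add_mem hx hy
    · intro r x _ hx
      rw [smul_comm]
      exact Λ.smul_mem r hx
  obtain ⟨c, hc⟩ := (Submodule.mem_span_range_iff_exists_fun A).1 hmem
  exact ⟨c, hc.symm⟩

end setting

end Fermat.Agent.S55
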