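import Mathlib
import Fermat.Prelude.Thm_IsAdicComplete_of_module_finite
import Fermat.Agent.S55.LocalNorm.Defs
import Fermat.Agent.S55.LocalNorm.Lattice
import Fermat.Agent.S55.LocalNorm.NormalLattice


set_option autoImplicit false
set_option linter.unusedSectionVars false

/-!
# S55 / local norm index, leaf LN3b: a `σ`-stable subgroup `V` of finite index in the units of `B`
with `Ĥ⁰(V) = H¹(V) = 1`.
-/

namespace Fermat.Agent.S55

open IsLocalRing

section setting

variable {A B : Type*} {K L : Type} [CommRing A] [IsDomain A] [IsDiscreteValuationRing A]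
  [CommRing B] [IsDomain B] [IsDiscreteValuationRing B]
  [Field K] [Field L] [Algebra A K] [IsFractionRing A K] [Algebra B L] [IsFractionRing B L]
  [Algebra A B] [Algebra K L] [Algebra A L] [IsScalarTower A B L] [IsScalarTower A K L]
  [IsIntegralClosure B A L] [FiniteDimensional K L] [IsGalois K L]

section basic

variable (K L)
include K L

theorem lnc_algebraMap_injective : Function.Injective (algebraMap A B) := by
  have h1 : Function.Injective (algebraMap A L) := by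
    rw [IsScalarTower.algebraMap_eq A K L]
    exact (algebraMap K L).injective.comp (IsFractionRing.injective A K)
  rw [IsScalarTower.algebraMap_eq A B L] at h1
  exact Function.Injective.of_comp h1

theorem lnc_smul_cancel {a : A} (ha : a ≠ 0) {x y : B} (e : a • x = a • y) : x = y := by
  rw [Algebra.smul_def, Algebra.smul_def] at e
  have : algebraMap A B a ≠ 0 := fun h0 =>
    ha (lnc_algebraMap_injective K L (by rw [h0, map_zero]))
  exact mul_left_cancel₀ this e

theorem lnc_not_isUnit (ϖ : A) (hϖ : Irreducible ϖ) : ¬ IsUnit (algebraMap A B ϖ) := by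
  rintro ⟨u, hu⟩
  have hinj : Function.Injective (algebraMap B L) := IsFractionRing.injective B L
  have h1 : algebraMap B L (algebraMap A B ϖ) * algebraMap B L ((u⁻¹ : Bˣ) : B) = 1 := by
    rw [← map_mul, ← hu, ← Units.val_mul, mul_inv_cancel, Units.val_one, map_one]
  rw [← IsScalarTower.algebraMap_apply, IsScalarTower.algebraMap_apply A K L] at h1
  have hϖK : algebraMap A K ϖ ≠ 0 := fun h0 =>
    hϖ.ne_zero (IsFractionRing.injective A K (by rw [h0, map_zero]))
  have h2 : algebraMap B L ((u⁻¹ : Bˣ) : B) = algebraMap K L (algebraMap A K ϖ)⁻¹ := by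
    have h3 : algebraMap K L (algebraMap A K ϖ) * algebraMap K L (algebraMap A K ϖ)⁻¹ = 1 := by
      rw [← map_mul, mul_inv_cancel₀ hϖK, map_one]
    have hne : algebraMap K L (algebraMap A K ϖ) ≠ 0 := by
      rw [Ne, map_eq_zero]; exact hϖK
    exact mul_left_cancel₀ hne (h1.trans h3.symm)
  have hint : IsIntegral A (algebraMap B L ((u⁻¹ : Bˣ) : B)) :=
    (IsIntegralClosure.isIntegral_iff (A := B) (R := A) (B := L)).mpr ⟨_, rfl⟩
  rw [h2, isIntegral_algebraMap_iff (algebraMap K L).injective] at hint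
  obtain ⟨a, ha⟩ := IsIntegrallyClosed.isIntegral_iff.mp hint
  have : ϖ * a = 1 := by
    apply IsFractionRing.injective A K
    rw [map_mul, ha, mul_inv_cancel₀ hϖK, map_one]
  exact hϖ.not_isUnit (IsUnit.of_mul_eq_one _ this)

end basic

/-! ### The normal lattice `Λ = ⊕ A τθ` and `M = a Λ` -/

variable (A K L) in
/-- `Λ = span_A {τ θ}`. -/
noncomputable def lncLam (θ : B) : Submodule A B :=
  Submodule.span A (Set.range fun τ : L ≃ₐ[K] L => galRestrict A K L B τ θ)

variable (A K L) in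
/-- `M = a Λ`. -/
noncomputable def lncM (θ : B) (a : A) : Submodule A B :=
  (lncLam A K L θ).map (LinearMap.lsmul A B a)

theorem mem_lncM {θ : B} {a : A} {x : B} :
    x ∈ lncM A K L θ a ↔ ∃ l ∈ lncLam A K L θ, a • l = x := by
  simp only [lncM, Submodule.mem_map, LinearMap.lsmul_apply]

theorem lnc_gen_mem (θ : B) (τ : L ≃ₐ[K] L) : galRestrict A K L B τ θ ∈ lncLam A K L θ :=
  Submodule.subset_span ⟨τ, rfl⟩

theorem lnc_theta_mem (θ : B) : θ ∈ lncLam A K L θ := by
  have := lnc_gen_mem (A := A) (K := K) (L := L) θ 1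
  rwa [map_one, AlgEquiv.one_apply] at this

theorem mem_lncLam {θ x : B} :
    x ∈ lncLam A K L θ ↔ ∃ c : (L ≃ₐ[K] L) → A, ∑ τ, c τ • galRestrict A K L B τ θ = x := by
  rw [lncLam, Submodule.mem_span_range_iff_exists_fun]

theorem lnc_gal_mul_apply (τ ρ : L ≃ₐ[K] L) (x : B) :
    galRestrict A K L B τ (galRestrict A K L B ρ x) = galRestrict A K L B (τ * ρ) x := by
  rw [map_mul, AlgEquiv.mul_apply]

theorem lnc_gal_mem_lam {θ x : B} (τ : L ≃ₐ[K] L) (hx : x ∈ lncLam A K L θ) :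
    galRestrict A K L B τ x ∈ lncLam A K L θ := by
  obtain ⟨c, rfl⟩ := mem_lncLam.mp hx
  rw [map_sum]
  refine Submodule.sum_mem _ fun ρ _ => ?_
  rw [map_smul, lnc_gal_mul_apply]
  exact Submodule.smul_mem _ _ (lnc_gen_mem θ _)

theorem lnc_gal_mem_M {θ x : B} {a : A} (τ : L ≃ₐ[K] L) (hx : x ∈ lncM A K L θ a) :
    galRestrict A K L B τ x ∈ lncM A K L θ a := by
  obtain ⟨l, hl, rfl⟩ := mem_lncM.mp hx
  exact mem_lncM.mpr ⟨_, lnc_gal_mem_lam τ hl, (map_smul _ _ _).symm⟩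

theorem lnc_algebraMap_smul (a : A) (b : B) :
    algebraMap B L (a • b) = algebraMap A K a • algebraMap B L b := by
  rw [Algebra.smul_def, map_mul, ← IsScalarTower.algebraMap_apply A B L,
    IsScalarTower.algebraMap_apply A K L, Algebra.smul_def]

/-- uniqueness of the coordinates w.r.t. the normal basis -/
theorem lnc_coord_unique {θ : B}
    (hθ : LinearIndependent K (fun τ : L ≃ₐ[K] L => τ (algebraMap B L θ)))
    (c c' : (L ≃ₐ[K] L) → A)
    (e : ∑ τ, c τ • galRestrict A K L B τ θ = ∑ τ, c' τ • galRestrict A K L B τ θ) : c = c' := by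
  have h1 : ∑ τ : L ≃ₐ[K] L, algebraMap A K (c τ - c' τ) • τ (algebraMap B L θ) = 0 := by
    have h2 : ∑ τ : L ≃ₐ[K] L, (c τ - c' τ) • galRestrict A K L B τ θ = 0 := by
      simp only [sub_smul, Finset.sum_sub_distrib, e, sub_self]
    have h3 := congrArg (algebraMap B L) h2
    rw [map_sum, map_zero] at h3
    rw [← h3]
    refine Finset.sum_congr rfl fun τ _ => ?_
    rw [lnc_algebraMap_smul (K := K), algebraMap_galRestrict_apply]
  have h4 := Fintype.linearIndependent_iff.mp hθ _ h1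
  funext τ
  have := h4 τ
  rw [map_sub, sub_eq_zero] at this
  exact IsFractionRing.injective A K this

/-! ### Adic completeness in elementary terms -/

section adic

variable {R N : Type*} [CommRing R] [AddCommGroup N] [Module R N] (r : R)

theorem lnc_mem_pow_smul_top (j : ℕ) (x : N) :
    x ∈ (Ideal.span {r} ^ j • ⊤ : Submodule R N) ↔ ∃ z : N, x = r ^ j • z := by
  rw [Ideal.span_singleton_pow, Submodule.ideal_span_singleton_smul,
    Submodule.mem_smul_pointwise_iff_exists]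
  constructor
  · rintro ⟨z, -, rfl⟩; exact ⟨z, rfl⟩
  · rintro ⟨z, rfl⟩; exact ⟨z, Submodule.mem_top, rfl⟩

theorem lnc_adic_complete [IsAdicComplete (Ideal.span {r}) N] (f : ℕ → N)
    (hf : ∀ j, ∃ z, f (j + 1) - f j = r ^ j • z) : ∃ ℓ, ∀ j, ∃ z, ℓ - f j = r ^ j • z := by
  have hcauchy : ∀ {m n : ℕ}, m ≤ n →
      f m ≡ f n [SMOD (Ideal.span {r} ^ m • ⊤ : Submodule R N)] := by
    intro m n hmn
    induction n, hmn using Nat.le_induction with
    | base => rfl
    | succ n hmn ih =>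
      refine ih.trans ?_
      rw [SModEq.sub_mem, lnc_mem_pow_smul_top]
      obtain ⟨z, hz⟩ := hf n
      refine ⟨-(r ^ (n - m) • z), ?_⟩
      rw [smul_neg, ← smul_assoc, smul_eq_mul, ← pow_add, Nat.add_sub_cancel' hmn, ← hz]
      abel
  obtain ⟨ℓ, hℓ⟩ := IsPrecomplete.prec (I := Ideal.span {r}) (M := N) inferInstance hcauchy
  refine ⟨ℓ, fun j => ?_⟩
  have := (hℓ j).symm
  rwa [SModEq.sub_mem, lnc_mem_pow_smul_top] at this

theorem lnc_adic_sep [IsAdicComplete (Ideal.span {r}) N] (x : N)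
    (hx : ∀ j, ∃ z, x = r ^ j • z) : x = 0 := by
  refine IsHausdorff.haus (I := Ideal.span {r}) inferInstance x fun j => ?_
  rw [SModEq.zero, lnc_mem_pow_smul_top]
  exact hx j

end adic

section fields

variable [IsAdicComplete (maximalIdeal A) A]

theorem lnc_mul_mem (ϖ : A) (θ : B) (c : ℕ) (hc : ∀ b : B, ϖ ^ c • b ∈ lncLam A K L θ)
    (x y : B) (hx : x ∈ lncM A K L θ (ϖ ^ (c + 1))) (hy : y ∈ lncM A K L θ (ϖ ^ (c + 1))) :
    ∃ z ∈ lncM A K L θ (ϖ ^ (c + 1)), x * y = algebraMap A B ϖ * z := by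
  obtain ⟨l1, -, rfl⟩ := mem_lncM.mp hx
  obtain ⟨l2, -, rfl⟩ := mem_lncM.mp hy
  refine ⟨ϖ ^ (c + 1) • (ϖ ^ c • (l1 * l2)), mem_lncM.mpr ⟨_, hc _, rfl⟩, ?_⟩
  simp only [Algebra.smul_def, map_pow]
  ring

variable (K L) in
theorem lnc_isUnit_one_add (ϖ : A) (hϖ : Irreducible ϖ) (θ : B) (c : ℕ)
    (x : B) (hx : x ∈ lncM A K L θ (ϖ ^ (c + 1))) : IsUnit (1 + x) := by
  obtain ⟨l, -, rfl⟩ := mem_lncM.mp hx
  have h1 : algebraMap A B ϖ ∈ maximalIdeal B := lnc_not_isUnit K L ϖ hϖ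
  have h2 : -(ϖ ^ (c + 1) • l) ∈ maximalIdeal B := by
    rw [Algebra.smul_def, map_pow, pow_succ', mul_assoc]
    exact neg_mem (Ideal.mul_mem_right _ _ h1)
  have := IsLocalRing.isUnit_one_sub_self_of_mem_nonunits _ h2
  rwa [sub_neg_eq_add] at this

section cs
variable (K L)
include K L

theorem lnc_complete (ϖ : A) (hϖ : Irreducible ϖ) (N' : Submodule A B) (f : ℕ → B)
    (hf : ∀ j, f j ∈ N')
    (hstep : ∀ j, ∃ z ∈ N', f (j + 1) - f j = algebraMap A B ϖ ^ j * z) :
    ∃ ℓ ∈ N', ∀ j, ∃ z ∈ N', ℓ - f j = algebraMap A B ϖ ^ j * z := by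
  have : Module.Finite A B := IsIntegralClosure.finite A K L B
  have : IsNoetherian A B := isNoetherian_of_isNoetherianRing_of_finite A B
  have : IsAdicComplete (maximalIdeal A) N' :=
    IsAdicComplete.of_module_finite (maximalIdeal A) N'
  have : IsAdicComplete (Ideal.span {ϖ}) N' := by
    rw [← hϖ.maximalIdeal_eq]; infer_instance
  obtain ⟨ℓ, hℓ⟩ := lnc_adic_complete ϖ (fun j => (⟨f j, hf j⟩ : N')) (by
    intro j
    obtain ⟨z, hz, e⟩ := hstep j
    refine ⟨⟨z, hz⟩, Subtype.ext ?_⟩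
    simp only [AddSubgroupClass.coe_sub, Submodule.coe_smul, Algebra.smul_def, map_pow]
    exact e)
  refine ⟨ℓ, ℓ.2, fun j => ?_⟩
  obtain ⟨z, hz⟩ := hℓ j
  refine ⟨z, z.2, ?_⟩
  have := congrArg Subtype.val hz
  simpa only [AddSubgroupClass.coe_sub, Submodule.coe_smul, Algebra.smul_def, map_pow] using this

theorem lnc_sep (ϖ : A) (hϖ : Irreducible ϖ) (N' : Submodule A B) (x : B)
    (hx : ∀ j, ∃ z ∈ N', x = algebraMap A B ϖ ^ j * z) : x = 0 := by
  have : Module.Finite A B := IsIntegralClosure.finite A K L B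
  have : IsNoetherian A B := isNoetherian_of_isNoetherianRing_of_finite A B
  have : IsAdicComplete (maximalIdeal A) N' :=
    IsAdicComplete.of_module_finite (maximalIdeal A) N'
  have : IsAdicComplete (Ideal.span {ϖ}) N' := by
    rw [← hϖ.maximalIdeal_eq]; infer_instance
  have hx0 : x ∈ N' := by
    obtain ⟨z, hz, e⟩ := hx 0
    rw [e, pow_zero, one_mul]; exact hz
  have := lnc_adic_sep ϖ (⟨x, hx0⟩ : N') (by
    intro j
    obtain ⟨z, hz, e⟩ := hx j
    refine ⟨⟨z, hz⟩, Subtype.ext ?_⟩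
    simp only [Submodule.coe_smul, Algebra.smul_def, map_pow]
    exact e)
  exact congrArg Subtype.val this

end cs

end fields

/-! ### The cyclic group action -/

section cyclic

variable (σ : L ≃ₐ[K] L) (hσ : ∀ τ, τ ∈ Subgroup.zpowers σ)
include hσ

theorem lnc_exists_pow (τ : L ≃ₐ[K] L) : ∃ k : ℕ, σ ^ k = τ := by
  have := (mem_powers_iff_mem_zpowers (x := σ) (y := τ)).mpr (hσ τ)
  exact (Submonoid.mem_powers_iff _ _).mp this

theorem lnc_pow_finrank : σ ^ Module.finrank K L = 1 := by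
  rw [← IsGalois.card_aut_eq_finrank K L]
  exact pow_card_eq_one'

theorem lnc_sum_range {β : Type*} [AddCommMonoid β] (F : (L ≃ₐ[K] L) → β) :
    ∑ i ∈ Finset.range (Module.finrank K L), F (σ ^ i) = ∑ τ, F τ := by
  classical
  rw [← IsGalois.card_aut_eq_finrank K L, ← IsCyclic.image_range_card hσ, Finset.sum_image]
  intro i hi j hj hij
  have hord : orderOf σ = Nat.card (L ≃ₐ[K] L) := orderOf_eq_card_of_forall_mem_zpowers hσ
  rw [Finset.coe_range, ← hord] at hi hj
  exact pow_injOn_Iio_orderOf hi hj hij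

omit hσ in
theorem lnc_iterate (i : ℕ) (x : B) :
    (galRestrict A K L B σ)^[i] x = galRestrict A K L B (σ ^ i) x := by
  rw [map_pow, AlgEquiv.coe_pow]

theorem lnc_iterate_finrank (x : B) :
    (galRestrict A K L B σ)^[Module.finrank K L] x = x := by
  rw [lnc_iterate, lnc_pow_finrank σ hσ, map_one, AlgEquiv.one_apply]

/-- the trace of a generator `τθ` is `Θ = ∑ ρθ` -/
theorem lnc_sum_iterate_gen (θ : B) (τ : L ≃ₐ[K] L) :
    ∑ i ∈ Finset.range (Module.finrank K L),
        (galRestrict A K L B σ)^[i] (galRestrict A K L B τ θ) =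
      ∑ ρ : L ≃ₐ[K] L, galRestrict A K L B ρ θ := by
  have h1 : ∀ i : ℕ, (galRestrict A K L B σ)^[i] (galRestrict A K L B τ θ) =
      galRestrict A K L B (σ ^ i * τ) θ := by
    intro i
    rw [lnc_iterate, lnc_gal_mul_apply]
  simp only [h1]
  rw [lnc_sum_range σ hσ (fun ρ => galRestrict A K L B (ρ * τ) θ)]
  exact Equiv.sum_comp (Equiv.mulRight τ) (fun ρ => galRestrict A K L B ρ θ)

/-- trace of an element of `a Λ` in coordinates -/
theorem lnc_sum_iterate_coord (θ : B) (a : A) (c : (L ≃ₐ[K] L) → A) :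
    ∑ i ∈ Finset.range (Module.finrank K L),
        (galRestrict A K L B σ)^[i] (a • ∑ τ, c τ • galRestrict A K L B τ θ) =
      a • ((∑ τ, c τ) • ∑ ρ : L ≃ₐ[K] L, galRestrict A K L B ρ θ) := by
  have h1 : ∀ i : ℕ, (galRestrict A K L B σ)^[i] (a • ∑ τ, c τ • galRestrict A K L B τ θ) =
      a • ∑ τ, c τ • (galRestrict A K L B σ)^[i] (galRestrict A K L B τ θ) := by
    intro i
    rw [lnc_iterate, map_smul, map_sum]
    congr 1
    refine Finset.sum_congr rfl fun τ _ => ?_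
    rw [map_smul, lnc_iterate]
  simp only [h1]
  rw [← Finset.smul_sum, Finset.sum_comm]
  congr 1
  rw [Finset.sum_smul]
  refine Finset.sum_congr rfl fun τ _ => ?_
  rw [← Finset.smul_sum, lnc_sum_iterate_gen σ hσ]

theorem lnc_H0 {θ : B} (hθ : LinearIndependent K (fun τ : L ≃ₐ[K] L => τ (algebraMap B L θ)))
    (a : A) (ha : a ≠ 0) (x : B) (hx : x ∈ lncM A K L θ a)
    (hfix : galRestrict A K L B σ x = x) :
    ∃ y ∈ lncM A K L θ a,
      ∑ i ∈ Finset.range (Module.finrank K L), (galRestrict A K L B σ)^[i] y = x := by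
  classical
  obtain ⟨l, hl, rfl⟩ := mem_lncM.mp hx
  obtain ⟨c, rfl⟩ := mem_lncLam.mp hl
  -- the coordinates are constant
  have h1 : ∀ ρ, c (σ⁻¹ * ρ) = c ρ := by
    have e1 : galRestrict A K L B σ (∑ τ, c τ • galRestrict A K L B τ θ) =
        ∑ τ, c τ • galRestrict A K L B τ θ := by
      rw [map_smul] at hfix
      exact lnc_smul_cancel K L ha hfix
    have e2 : galRestrict A K L B σ (∑ τ, c τ • galRestrict A K L B τ θ) =
        ∑ ρ, c (σ⁻¹ * ρ) • galRestrict A K L B ρ θ := by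
      rw [map_sum]
      rw [← Equiv.sum_comp (Equiv.mulLeft σ)
        (fun ρ => c (σ⁻¹ * ρ) • galRestrict A K L B ρ θ)]
      refine Finset.sum_congr rfl fun τ _ => ?_
      rw [map_smul, lnc_gal_mul_apply, Equiv.coe_mulLeft, inv_mul_cancel_left]
    have := lnc_coord_unique hθ _ _ (e2.symm.trans e1)
    exact fun ρ => congrFun this ρ
  have h2 : ∀ k : ℕ, c (σ ^ k) = c 1 := by
    intro k
    induction k with
    | zero => rw [pow_zero]
    | succ k ih =>
      rw [← ih, ← h1 (σ ^ (k + 1)), pow_succ', inv_mul_cancel_left]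
  have h3 : ∀ τ, c τ = c 1 := by
    intro τ
    obtain ⟨k, rfl⟩ := lnc_exists_pow σ hσ τ
    exact h2 k
  refine ⟨a • (c 1 • θ), mem_lncM.mpr ⟨_, Submodule.smul_mem _ _ (lnc_theta_mem θ), rfl⟩, ?_⟩
  have h4 : a • (c 1 • θ) =
      a • ∑ τ, (Pi.single (1 : L ≃ₐ[K] L) (c 1) : (L ≃ₐ[K] L) → A) τ • galRestrict A K L B τ θ := by
    congr 1
    rw [Finset.sum_eq_single (1 : L ≃ₐ[K] L)]
    · rw [Pi.single_eq_same, map_one, AlgEquiv.one_apply]
    · intro τ _ hτ
      rw [Pi.single_eq_of_ne hτ, zero_smul]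
    · intro h; exact absurd (Finset.mem_univ _) h
  rw [h4, lnc_sum_iterate_coord σ hσ]
  congr 1
  rw [Finset.sum_pi_single', if_pos (Finset.mem_univ _), Finset.smul_sum]
  refine Finset.sum_congr rfl fun τ _ => ?_
  rw [h3 τ]

theorem lnc_H1 {θ : B} (hθ : LinearIndependent K (fun τ : L ≃ₐ[K] L => τ (algebraMap B L θ)))
    (ϖ a : A) (ha : a ≠ 0) (x : B) (hx : x ∈ lncM A K L θ a)
    (hT : ∃ z ∈ lncM A K L θ a,
      ∑ i ∈ Finset.range (Module.finrank K L), (galRestrict A K L B σ)^[i] x =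
        algebraMap A B ϖ * z) :
    ∃ t ∈ lncM A K L θ a, ∃ z ∈ lncM A K L θ a,
      x = (galRestrict A K L B σ t - t) + algebraMap A B ϖ * z := by
  classical
  obtain ⟨l, hl, rfl⟩ := mem_lncM.mp hx
  obtain ⟨c, rfl⟩ := mem_lncLam.mp hl
  obtain ⟨z, hz, eT⟩ := hT
  obtain ⟨m, hm, rfl⟩ := mem_lncM.mp hz
  obtain ⟨c', rfl⟩ := mem_lncLam.mp hm
  -- `∑ c = ϖ * c' 1`
  have hsum : ∑ τ, c τ = ϖ * c' 1 := by
    rw [lnc_sum_iterate_coord σ hσ] at eT
    have e1 : (∑ τ, c τ) • ∑ ρ : L ≃ₐ[K] L, galRestrict A K L B ρ θ =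
        ϖ • ∑ τ, c' τ • galRestrict A K L B τ θ := by
      apply lnc_smul_cancel K L ha
      rw [eT, Algebra.smul_def ϖ, Algebra.smul_def a, Algebra.smul_def a]
      ring
    rw [Finset.smul_sum, Finset.smul_sum] at e1
    simp only [← mul_smul] at e1
    have := lnc_coord_unique hθ (fun _ => ∑ τ, c τ) (fun τ => ϖ * c' τ) e1
    exact congrFun this 1
  -- the telescoping elements
  choose k hk using lnc_exists_pow σ hσ
  let tt : (L ≃ₐ[K] L) → B := fun τ =>
    ∑ i ∈ Finset.range (k τ), galRestrict A K L B (σ ^ i) θ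
  have htt : ∀ τ, tt τ ∈ lncLam A K L θ := fun τ =>
    Submodule.sum_mem _ fun i _ => lnc_gen_mem θ _
  have htel : ∀ τ, galRestrict A K L B σ (tt τ) - tt τ =
      galRestrict A K L B τ θ - θ := by
    intro τ
    simp only [tt]
    rw [map_sum, ← Finset.sum_sub_distrib]
    have : ∀ i ∈ Finset.range (k τ),
        galRestrict A K L B σ (galRestrict A K L B (σ ^ i) θ) - galRestrict A K L B (σ ^ i) θ =
        galRestrict A K L B (σ ^ (i + 1)) θ - galRestrict A K L B (σ ^ i) θ := by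
      intro i _
      rw [lnc_gal_mul_apply, pow_succ']
    rw [Finset.sum_congr rfl this,
      Finset.sum_range_sub (fun i => galRestrict A K L B (σ ^ i) θ), hk τ, pow_zero, map_one,
      AlgEquiv.one_apply]
  refine ⟨a • ∑ τ, c τ • tt τ, mem_lncM.mpr ⟨_, Submodule.sum_mem _ fun τ _ =>
      Submodule.smul_mem _ _ (htt τ), rfl⟩,
    a • (c' 1 • θ), mem_lncM.mpr ⟨_, Submodule.smul_mem _ _ (lnc_theta_mem θ), rfl⟩, ?_⟩
  have h5 : galRestrict A K L B σ (a • ∑ τ, c τ • tt τ) - a • ∑ τ, c τ • tt τ =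
      a • ∑ τ, c τ • (galRestrict A K L B τ θ - θ) := by
    rw [map_smul, map_sum, ← smul_sub, ← Finset.sum_sub_distrib]
    congr 1
    refine Finset.sum_congr rfl fun τ _ => ?_
    rw [map_smul, ← smul_sub, htel]
  rw [h5]
  have h6 : ∑ τ, c τ • (galRestrict A K L B τ θ - θ) =
      ∑ τ, c τ • galRestrict A K L B τ θ - (∑ τ, c τ) • θ := by
    simp only [smul_sub, Finset.sum_sub_distrib, Finset.sum_smul]
  rw [h6, hsum, smul_sub, Algebra.smul_def a ((ϖ * c' 1) • θ), Algebra.smul_def (ϖ * c' 1) θ,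
    Algebra.smul_def a (c' 1 • θ), Algebra.smul_def (c' 1) θ, map_mul]
  ring

/-- the lattice data for `M = ϖ^(c+1) Λ` -/
theorem lnc_latticeData [IsAdicComplete (maximalIdeal A) A] (ϖ : A) (hϖ : Irreducible ϖ) (θ : B)
    (hθ : LinearIndependent K (fun τ : L ≃ₐ[K] L => τ (algebraMap B L θ)))
    (c : ℕ) (hc : ∀ b : B, ϖ ^ c • b ∈ lncLam A K L θ) :
    LnLatticeData (algebraMap A B ϖ) (lncM A K L θ (ϖ ^ (c + 1))).toAddSubgroup
      ((galRestrict A K L B σ : B ≃ₐ[A] B) : B ≃+* B) (Module.finrank K L) where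
  pi_ne := fun h0 => hϖ.ne_zero (lnc_algebraMap_injective K L (by rw [h0, map_zero]))
  pi_mem := fun x hx => by
    rw [Submodule.mem_toAddSubgroup] at hx ⊢
    rw [← Algebra.smul_def]
    exact Submodule.smul_mem _ _ hx
  mul_mem := fun x hx y hy => lnc_mul_mem ϖ θ c hc x y hx hy
  complete := fun f hf hstep => lnc_complete K L ϖ hϖ _ f hf hstep
  sep := fun x hx => lnc_sep K L ϖ hϖ (lncM A K L θ (ϖ ^ (c + 1))) x hx
  unit := fun x hx => lnc_isUnit_one_add K L ϖ hϖ θ c x hx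
  s_mem := fun x hx => lnc_gal_mem_M σ hx
  s_pi := AlgEquiv.commutes _ _
  s_pow := fun x => lnc_iterate_finrank σ hσ x
  H0 := fun x hx hfix => lnc_H0 σ hσ hθ _ (pow_ne_zero _ hϖ.ne_zero) x hx hfix
  H1 := fun x hx hT => lnc_H1 σ hσ hθ ϖ _ (pow_ne_zero _ hϖ.ne_zero) x hx hT

end cyclic

/-! ### Finite index -/

section index

variable [Finite (ResidueField A)]

variable (A K L B) in
include K L in
theorem lnc_finite_quotient (N : ℕ) :
    Finite (B ⧸ ((maximalIdeal A) ^ N • ⊤ : Submodule A B)) := by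
  have : Module.Finite A B := IsIntegralClosure.finite A K L B
  have : IsNoetherian A B := isNoetherian_of_isNoetherianRing_of_finite A B
  have : Finite (A ⧸ maximalIdeal A) := ‹Finite (ResidueField A)›
  induction N with
  | zero =>
    rw [pow_zero, Ideal.one_eq_top, Submodule.top_smul]
    infer_instance
  | succ N ih =>
    rw [pow_succ', Submodule.mul_smul]
    exact Submodule.finite_quotient_smul (maximalIdeal A) (IsNoetherian.noetherian _)

variable (K L) in
include K L in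
/-- a subgroup of `Bˣ` containing the principal units of level `N` has finite index -/
theorem lnc_index_ne_zero (ϖ : A) (hϖ : Irreducible ϖ) (V : Subgroup Bˣ) (N : ℕ)
    (hV : ∀ u : Bˣ, (∃ b : B, (u : B) - 1 = ϖ ^ N • b) → u ∈ V) : V.index ≠ 0 := by
  have hfin := lnc_finite_quotient (A := A) (B := B) (K := K) (L := L) N
  let J : Submodule A B := (maximalIdeal A) ^ N • ⊤
  have hJ : ∀ x : B, x ∈ J ↔ ∃ b : B, x = ϖ ^ N • b := by
    intro x
    simp only [J]
    rw [hϖ.maximalIdeal_eq]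
    exact lnc_mem_pow_smul_top ϖ N x
  let ψ : Bˣ → B ⧸ J := fun u => Submodule.Quotient.mk (u : B)
  have hψ : ∀ u v : Bˣ, ψ u = ψ v → (QuotientGroup.mk u : Bˣ ⧸ V) = QuotientGroup.mk v := by
    intro u v huv
    rw [QuotientGroup.eq]
    apply hV
    have h1 : (u : B) - v ∈ J := (Submodule.Quotient.eq J).mp huv
    obtain ⟨b, hb⟩ := (hJ _).mp h1
    refine ⟨-(((u⁻¹ : Bˣ) : B) * b), ?_⟩
    have h2 : ((u⁻¹ * v : Bˣ) : B) - 1 = ((u⁻¹ : Bˣ) : B) * ((v : B) - u) := by
      have h0 : ((u⁻¹ : Bˣ) : B) * (u : B) = 1 := by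
        rw [← Units.val_mul, inv_mul_cancel, Units.val_one]
      rw [Units.val_mul, mul_sub, h0]
    rw [h2]
    have h3 : (v : B) - u = -(ϖ ^ N • b) := by rw [← hb]; ring
    rw [h3, Algebra.smul_def, Algebra.smul_def]
    ring
  have : Finite (Bˣ ⧸ V) := by
    let f : Set.range ψ → Bˣ ⧸ V := fun q => QuotientGroup.mk (Classical.choose q.2)
    refine Finite.of_surjective f ?_
    intro x
    obtain ⟨u, rfl⟩ := QuotientGroup.mk_surjective x
    refine ⟨⟨ψ u, u, rfl⟩, ?_⟩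
    exact hψ _ _ (Classical.choose_spec (⟨u, rfl⟩ : ∃ y, ψ y = ψ u))
  exact Subgroup.index_ne_zero_of_finite

end index

/-! ### Transport to `Lˣ` and the main statement -/

section main

/-- the inclusion `Bˣ → Lˣ` -/
noncomputable def lncIota (B L : Type*) [CommRing B] [Field L] [Algebra B L] : Bˣ →* Lˣ :=
  Units.map (algebraMap B L : B →* L)

theorem lncIota_injective : Function.Injective (lncIota B L) :=
  Units.map_injective (IsFractionRing.injective B L)

theorem lnUnits_eq_range : lnUnits B L = (lncIota B L).range := rfl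

theorem lncIota_sU (σ : L ≃ₐ[K] L) (u : Bˣ) :
    lncIota B L (Units.map ((galRestrict A K L B σ : B ≃ₐ[A] B) : B →* B) u) =
      lnAut σ (lncIota B L u) := by
  apply Units.ext
  simp only [lncIota, Units.coe_map, MonoidHom.coe_coe, lnAut_apply]
  exact algebraMap_galRestrict_apply A σ (u : B)

theorem lnc_comm_iterate {X Y : Type*} [CommGroup X] [CommGroup Y] (ι : X →* Y) (s : X →* X)
    (s' : Y →* Y) (hs : ∀ x, ι (s x) = s' (ι x)) (i : ℕ) (x : X) :
    ι (s^[i] x) = s'^[i] (ι x) := by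
  induction i with
  | zero => rfl
  | succ i ih => rw [Function.iterate_succ_apply', Function.iterate_succ_apply', hs, ih]

theorem lnc_comm_lnNorm {X Y : Type*} [CommGroup X] [CommGroup Y] (ι : X →* Y) (s : X →* X)
    (s' : Y →* Y) (hs : ∀ x, ι (s x) = s' (ι x)) (n : ℕ) (x : X) :
    ι (lnNorm n s x) = lnNorm n s' (ι x) := by
  rw [lnNorm_apply, lnNorm_apply, map_prod]
  exact Finset.prod_congr rfl fun i _ => lnc_comm_iterate ι s s' hs i x

theorem lnc_comm_lnDiv {X Y : Type*} [CommGroup X] [CommGroup Y] (ι : X →* Y) (s : X →* X)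
    (s' : Y →* Y) (hs : ∀ x, ι (s x) = s' (ι x)) (x : X) :
    ι (lnDiv s x) = lnDiv s' (ι x) := by
  rw [lnDiv_apply, lnDiv_apply, map_div, hs]

variable [IsAdicComplete (maximalIdeal A) A] [Finite (ResidueField A)]

variable (A) in
include A in
/-- **LN3b**: a `σ`-stable subgroup `V` of finite index in the units with `Ĥ⁰ = H¹ = 1`. -/
theorem ln_exists_cohTrivial (σ : L ≃ₐ[K] L) (hσ : ∀ τ, τ ∈ Subgroup.zpowers σ) :
    ∃ V : Subgroup Lˣ, V ≤ lnUnits B L ∧ V.relIndex (lnUnits B L) ≠ 0 ∧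
      (∀ v ∈ V, lnAut σ v ∈ V) ∧
      (∀ v ∈ V, lnAut σ v = v → ∃ v' ∈ V, lnNorm (Module.finrank K L) (lnAut σ) v' = v) ∧
      (∀ v ∈ V, lnNorm (Module.finrank K L) (lnAut σ) v = 1 →
        ∃ v' ∈ V, lnDiv (lnAut σ) v' = v) := by
  obtain ⟨θ, d, hd, hθ, hdB⟩ := ln_exists_normal_lattice (A := A) (B := B) (K := K) (L := L)
  obtain ⟨ϖ, hϖ⟩ := IsDiscreteValuationRing.exists_irreducible A
  obtain ⟨c, u, hu⟩ := IsDiscreteValuationRing.associated_pow_irreducible hd hϖ
  have hc : ∀ b : B, ϖ ^ c • b ∈ lncLam A K L θ := by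
    intro b
    obtain ⟨a, ha⟩ := hdB b
    rw [← hu, mul_comm, mul_smul, ha]
    exact Submodule.smul_mem _ _ (mem_lncLam.mpr ⟨a, rfl⟩)
  have h := lnc_latticeData σ hσ ϖ hϖ θ hθ c hc
  have hsU : ∀ x, lncIota B L (h.sU x) = lnAut σ (lncIota B L x) := fun x => lncIota_sU σ x
  refine ⟨(h.V 0).map (lncIota B L), ?_, ?_, ?_, ?_, ?_⟩
  · rw [lnUnits_eq_range, MonoidHom.range_eq_map]
    exact Subgroup.map_mono le_top
  · rw [lnUnits_eq_range, MonoidHom.range_eq_map,
      Subgroup.relIndex_map_map_of_injective _ _ (lncIota_injective (B := B) (L := L)),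
      Subgroup.relIndex_top_right]
    refine lnc_index_ne_zero K L ϖ hϖ (h.V 0) (c + 1 + c) ?_
    rintro w ⟨b, hb⟩
    refine h.mem_V_zero.mpr ⟨ϖ ^ (c + 1) • (ϖ ^ c • b), ?_, ?_⟩
    · exact mem_lncM.mpr ⟨_, hc b, rfl⟩
    · rw [← mul_smul, ← pow_add, ← hb]; ring
  · rintro _ ⟨w, hw, rfl⟩
    exact ⟨h.sU w, h.sU_mem_V hw, hsU w⟩
  · rintro _ ⟨w, hw, rfl⟩ hfix
    have hfix' : h.sU w = w := lncIota_injective (B := B) (L := L) ((hsU w).trans hfix)
    obtain ⟨v, hv, e⟩ := h.H0_trivial w hw hfix'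
    exact ⟨lncIota B L v, ⟨v, hv, rfl⟩, by
      rw [← lnc_comm_lnNorm (lncIota B L) h.sU (lnAut σ) hsU, e]⟩
  · rintro _ ⟨w, hw, rfl⟩ hN
    have hN' : lnNorm (Module.finrank K L) h.sU w = 1 := by
      apply lncIota_injective (B := B) (L := L)
      rw [lnc_comm_lnNorm (lncIota B L) h.sU (lnAut σ) hsU, hN, map_one]
    obtain ⟨v, hv, e⟩ := h.H1_trivial w hw hN'
    exact ⟨lncIota B L v, ⟨v, hv, rfl⟩, by
      rw [← lnc_comm_lnDiv (lncIota B L) h.sU (lnAut σ) hsU, e]⟩

end main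

end setting

end Fermat.Agent.S55
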