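import Mathlib
import Fermat.Agent.S55.LocalNorm.Defs

set_option autoImplicit false

/-!
# S55 / LN1: transfer of the Herbrand quotient along a finite-index subgroup with trivial
cohomology

For commuting endomorphisms `D`, `N` of a commutative group with `D ∘ N = N ∘ D = 1`, and stable
subgroups `V ≤ U` with `[U : V]` finite such that `ker D|V = N V` and `ker N|V = D V`:
`[U ∩ ker D : N U] = [U ∩ ker N : D U] ≠ 0`.

The proof uses the index formula `[U : V] = [U ∩ ker f : V ∩ ker f] * [f U : f V]` twice.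
-/

namespace Fermat.Agent.S55

/-- index formula: `[G : V] = [ker g : V ∩ ker g] * [g G : g V]` -/
theorem ln1_index_eq {G Y : Type*} [Group G] [Group Y] (g : G →* Y) (V : Subgroup G) [V.Normal] :
    V.index = V.relIndex g.ker * (V.map g).relIndex g.range := by
  have h1 : V.relIndex (V ⊔ g.ker) * (V ⊔ g.ker).index = V.index :=
    Subgroup.relIndex_mul_index le_sup_left
  have h2 : V.relIndex (V ⊔ g.ker) = V.relIndex g.ker := Subgroup.relIndex_sup_left g.ker V
  have h3 : (V.map g).relIndex g.range = (V ⊔ g.ker).index := by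
    have := Subgroup.relIndex_map_map g V ⊤
    rw [← MonoidHom.range_eq_map] at this
    rw [this, top_sup_eq, Subgroup.relIndex_top_right]
  rw [← h1, h2, h3]

/-- relative index formula: `[U : V] = [U ∩ ker f : V ∩ ker f] * [f U : f V]` -/
theorem ln1_relIndex_eq {X Y : Type*} [CommGroup X] [Group Y] (f : X →* Y) (U V : Subgroup X)
    (hVU : V ≤ U) :
    V.relIndex U = V.relIndex (U ⊓ f.ker) * (V.map f).relIndex (U.map f) := by
  have key := ln1_index_eq (f.comp U.subtype) (V.subgroupOf U)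
  have e1 : (V.subgroupOf U).index = V.relIndex U := rfl
  have e2 : (V.subgroupOf U).relIndex (f.comp U.subtype).ker = V.relIndex (U ⊓ f.ker) := by
    have : (f.comp U.subtype).ker = (U ⊓ f.ker).subgroupOf U := by
      ext x
      simp [Subgroup.mem_subgroupOf, MonoidHom.mem_ker]
    rw [this, Subgroup.relIndex_subgroupOf inf_le_left]
  have e3 : (V.subgroupOf U).map (f.comp U.subtype) = V.map f := by
    ext y
    simp only [Subgroup.mem_map, Subgroup.mem_subgroupOf, MonoidHom.comp_apply,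
      Subgroup.coe_subtype]
    constructor
    · rintro ⟨x, hx, rfl⟩
      exact ⟨x, hx, rfl⟩
    · rintro ⟨x, hx, rfl⟩
      exact ⟨⟨x, hVU hx⟩, hx, rfl⟩
  have e4 : (f.comp U.subtype).range = U.map f := by
    rw [MonoidHom.range_eq_map, ← Subgroup.map_map, ← MonoidHom.range_eq_map, Subgroup.range_subtype]
  rw [e1, e2, e3, e4] at key
  exact key

/-- Ambient form: `V ≤ U ≤ X`, everything stable under `D`, `N`. -/
theorem ln_herbrand_transfer_sub {X : Type*} [CommGroup X] (D N : X →* X)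
    (hDN : ∀ x, D (N x) = 1) (hND : ∀ x, N (D x) = 1)
    (U V : Subgroup X) (hVU : V ≤ U) (hV : V.relIndex U ≠ 0)
    (hDU : ∀ u ∈ U, D u ∈ U) (hNU : ∀ u ∈ U, N u ∈ U)
    (hDV : ∀ v ∈ V, D v ∈ V) (hNV : ∀ v ∈ V, N v ∈ V)
    (h0 : ∀ v ∈ V, D v = 1 → ∃ v' ∈ V, N v' = v)
    (h1 : ∀ v ∈ V, N v = 1 → ∃ v' ∈ V, D v' = v) :
    (U.map N).relIndex (U ⊓ D.ker) = (U.map D).relIndex (U ⊓ N.ker) ∧
      (U.map N).relIndex (U ⊓ D.ker) ≠ 0 := by
  -- the two instances of the index formula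
  have kD := ln1_relIndex_eq D U V hVU
  have kN := ln1_relIndex_eq N U V hVU
  -- `V ∩ (U ∩ ker D) = N V`, `V ∩ (U ∩ ker N) = D V`
  have iD : V ⊓ (U ⊓ D.ker) = V.map N := by
    ext x
    simp only [Subgroup.mem_inf, MonoidHom.mem_ker, Subgroup.mem_map]
    constructor
    · rintro ⟨hx, -, hx1⟩
      obtain ⟨v', hv', rfl⟩ := h0 x hx hx1
      exact ⟨v', hv', rfl⟩
    · rintro ⟨v, hv, rfl⟩
      exact ⟨hNV v hv, hVU (hNV v hv), hDN v⟩
  have iN : V ⊓ (U ⊓ N.ker) = V.map D := by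
    ext x
    simp only [Subgroup.mem_inf, MonoidHom.mem_ker, Subgroup.mem_map]
    constructor
    · rintro ⟨hx, -, hx1⟩
      obtain ⟨v', hv', rfl⟩ := h1 x hx hx1
      exact ⟨v', hv', rfl⟩
    · rintro ⟨v, hv, rfl⟩
      exact ⟨hDV v hv, hVU (hDV v hv), hND v⟩
  have leN : U.map N ≤ U ⊓ D.ker := by
    rintro _ ⟨u, hu, rfl⟩
    exact ⟨hNU u hu, hDN u⟩
  have leD : U.map D ≤ U ⊓ N.ker := by
    rintro _ ⟨u, hu, rfl⟩
    exact ⟨hDU u hu, hND u⟩
  have mN : (V.map N).relIndex (U.map N) * (U.map N).relIndex (U ⊓ D.ker) =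
      V.relIndex (U ⊓ D.ker) := by
    rw [Subgroup.relIndex_mul_relIndex _ _ _ (Subgroup.map_mono hVU) leN, ← iD,
      Subgroup.inf_relIndex_right]
  have mD : (V.map D).relIndex (U.map D) * (U.map D).relIndex (U ⊓ N.ker) =
      V.relIndex (U ⊓ N.ker) := by
    rw [Subgroup.relIndex_mul_relIndex _ _ _ (Subgroup.map_mono hVU) leD, ← iN,
      Subgroup.inf_relIndex_right]
  rw [← mN] at kD
  rw [← mD] at kN
  set a := (V.map N).relIndex (U.map N)
  set b := (V.map D).relIndex (U.map D)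
  set x := (U.map N).relIndex (U ⊓ D.ker)
  set y := (U.map D).relIndex (U ⊓ N.ker)
  have hx : a * x * b ≠ 0 := kD ▸ hV
  have ha : a ≠ 0 := fun h => hx (by simp [h])
  have hb : b ≠ 0 := fun h => hx (by simp [h])
  have hx0 : x ≠ 0 := fun h => hx (by simp [h])
  refine ⟨?_, hx0⟩
  have e : a * x * b = b * y * a := kD.symm.trans kN
  have e' : (a * b) * x = (a * b) * y := by
    calc (a * b) * x = a * x * b := by ring
      _ = b * y * a := e
      _ = (a * b) * y := by ring
  exact Nat.eq_of_mul_eq_mul_left (Nat.pos_of_ne_zero (mul_ne_zero ha hb)) e'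

/-- `[ker D : im N] = [ker N : im D] ≠ 0` for `U` with a finite-index stable subgroup `V` with
trivial cohomology. -/
theorem ln_herbrand_transfer {U : Type*} [CommGroup U] (D N : U →* U)
    (hDN : ∀ x, D (N x) = 1) (hND : ∀ x, N (D x) = 1)
    (V : Subgroup U) (hV : V.index ≠ 0)
    (hDV : ∀ v ∈ V, D v ∈ V) (hNV : ∀ v ∈ V, N v ∈ V)
    (h0 : ∀ v ∈ V, D v = 1 → ∃ v' ∈ V, N v' = v)
    (h1 : ∀ v ∈ V, N v = 1 → ∃ v' ∈ V, D v' = v) :
    N.range.relIndex D.ker = D.range.relIndex N.ker ∧ N.range.relIndex D.ker ≠ 0 := by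
  have key := ln_herbrand_transfer_sub D N hDN hND ⊤ V le_top
    (by rwa [Subgroup.relIndex_top_right]) (fun _ _ => Subgroup.mem_top _)
    (fun _ _ => Subgroup.mem_top _) hDV hNV h0 h1
  rw [← MonoidHom.range_eq_map, ← MonoidHom.range_eq_map, top_inf_eq, top_inf_eq] at key
  exact key

end Fermat.Agent.S55
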