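import Mathlib
import Fermat.Agent.S55.LocalNorm.Defs

set_option autoImplicit false
set_option linter.unusedVariables false

/-!
# S55 / local norm index, leaf LN4a: the abstract index computation

`X = Lˣ`, `s = σ`, `U = ker w` the units, `w` the valuation; Hilbert 90 and the Herbrand quotient of
`U` being one give `[X^s : N X] = n`.
-/

namespace Fermat.Agent.S55

section lemmaA

variable {G G' : Type*} [CommGroup G] [Group G']

/-- `[K : H] = [f K : f H] * [K ∩ ker f : H ∩ ker f]` for subgroups `H ≤ K` of a commutative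
group. -/
theorem lnIdx_relIndex_eq_mul (f : G →* G') {H K : Subgroup G} (hHK : H ≤ K) :
    H.relIndex K = (H.map f).relIndex (K.map f) * (H ⊓ f.ker).relIndex (K ⊓ f.ker) := by
  set M := K ⊓ f.ker with hM
  set P := H ⊔ f.ker with hP
  -- the chain `H ≤ H ⊔ M ≤ K`
  have h1 : H.relIndex K = H.relIndex (H ⊔ M) * (H ⊔ M).relIndex K :=
    (Subgroup.relIndex_mul_relIndex H (H ⊔ M) K le_sup_left (sup_le hHK inf_le_left)).symm
  have h2 : H.relIndex (H ⊔ M) = (H ⊓ f.ker).relIndex M := by
    rw [Subgroup.relIndex_sup_left, ← Subgroup.inf_relIndex_right H M]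
    congr 1
    rw [hM, ← inf_assoc, inf_eq_left.mpr hHK]
  have h3 : (H ⊔ M).relIndex K = P.relIndex K := by
    have : H ⊔ M = P ⊓ K := by
      rw [hM, hP, sup_inf_assoc_of_le f.ker hHK, inf_comm f.ker K]
    rw [this, Subgroup.inf_relIndex_right]
  have h4 : (H.map f).relIndex (K.map f) = P.relIndex K := by
    rw [Subgroup.relIndex_map_map]
    have : K ⊔ f.ker = P ⊔ K := by
      rw [hP, sup_assoc, sup_comm f.ker K, ← sup_assoc, sup_eq_right.mpr hHK]
    rw [this, Subgroup.relIndex_sup_left]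
  rw [h1, h2, h3, h4, mul_comm]

end lemmaA

theorem ln_norm_index_abstract {X : Type*} [CommGroup X] (s : X →* X) (n : ℕ) (hn : 0 < n)
    (hs : ∀ x, s^[n] x = x)
    (U : Subgroup X) (w : X →* Multiplicative ℤ) (hwU : w.ker = U) (hw : Function.Surjective w)
    (hws : ∀ x, w (s x) = w x)
    (hfix : ∃ x, s x = x ∧ w x ≠ 1)
    (h90 : ∀ x, lnNorm n s x = 1 → ∃ y, lnDiv s y = x)
    (hU : (U.map (lnNorm n s)).relIndex (U ⊓ (lnDiv s).ker) =
        (U.map (lnDiv s)).relIndex (U ⊓ (lnNorm n s).ker) ∧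
      (U.map (lnNorm n s)).relIndex (U ⊓ (lnDiv s).ker) ≠ 0) :
    (lnNorm n s).range.relIndex (lnDiv s).ker = n := by
  classical
  obtain ⟨hab, ha0⟩ := hU
  set D := lnDiv s with hD
  set N := lnNorm n s with hN
  -- iterates
  have hw_iter : ∀ (i : ℕ) (x : X), w (s^[i] x) = w x := by
    intro i
    induction i with
    | zero => intro x; rfl
    | succ i ih => intro x; rw [Function.iterate_succ_apply', hws, ih]
  have hwN : ∀ x, w (N x) = w x ^ n := by
    intro x
    rw [hN, lnNorm_apply, map_prod, Finset.prod_congr rfl (fun i _ => hw_iter i x),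
      Finset.prod_const, Finset.card_range]
  have hkey : ∀ x, ∏ i ∈ Finset.range n, s^[i + 1] x = ∏ i ∈ Finset.range n, s^[i] x := by
    intro x
    have h2 := Finset.prod_range_succ (fun i => s^[i] x) n
    have h3 := Finset.prod_range_succ' (fun i => s^[i] x) n
    rw [h2] at h3
    simp only [Function.iterate_zero, id_eq, hs x] at h3
    exact (mul_right_cancel h3).symm
  have hNs : ∀ x, N (s x) = N x := by
    intro x
    rw [hN, lnNorm_apply, lnNorm_apply, ← hkey x]
    exact Finset.prod_congr rfl fun i _ => by rw [Function.iterate_succ_apply]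
  have hsN : ∀ x, s (N x) = N x := by
    intro x
    rw [hN, lnNorm_apply, map_prod, ← hkey x]
    exact Finset.prod_congr rfl fun i _ => by rw [Function.iterate_succ_apply']
  have hDN : ∀ x, D (N x) = 1 := by
    intro x
    rw [hD, lnDiv_apply, hsN, div_self']
  have hND : ∀ x, N (D x) = 1 := by
    intro x
    rw [hD, lnDiv_apply, map_div, hNs, div_self']
  have hF : N.range ≤ D.ker := by
    rintro _ ⟨x, rfl⟩
    exact MonoidHom.mem_ker.mpr (hDN x)
  have hpow : ∀ z : Multiplicative ℤ, z ^ n = 1 → z = 1 := by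
    intro z hz
    have h1 : n • Multiplicative.toAdd z = 0 := by
      rw [← toAdd_pow, hz]; rfl
    rw [nsmul_eq_mul, mul_eq_zero] at h1
    rcases h1 with h1 | h1
    · exact absurd (by exact_mod_cast h1) hn.ne'
    · exact Multiplicative.toAdd.injective h1
  have hNU' : ∀ x, N x ∈ U → x ∈ U := by
    intro x hx
    rw [← hwU, MonoidHom.mem_ker, hwN] at hx
    rw [← hwU, MonoidHom.mem_ker]
    exact hpow _ hx
  have hkerN_le : N.ker ≤ U := by
    intro x hx
    apply hNU'
    rw [MonoidHom.mem_ker.mp hx]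
    exact U.one_mem
  have hkerN : N.ker = D.range := by
    apply le_antisymm
    · intro x hx
      obtain ⟨y, hy⟩ := h90 x (MonoidHom.mem_ker.mp hx)
      exact ⟨y, hy⟩
    · rintro _ ⟨y, rfl⟩
      exact MonoidHom.mem_ker.mpr (hND y)
  have hNU : N.range ⊓ w.ker = U.map N := by
    rw [hwU]
    apply le_antisymm
    · rintro _ ⟨⟨x, rfl⟩, hx⟩
      exact ⟨x, hNU' x hx, rfl⟩
    · rintro _ ⟨u, hu, rfl⟩
      refine ⟨⟨u, rfl⟩, ?_⟩
      have hu' : w u = 1 := by rw [← hwU] at hu; exact MonoidHom.mem_ker.mp hu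
      show N u ∈ U
      rw [← hwU, MonoidHom.mem_ker, hwN, hu', one_pow]
  -- the `b`-side
  have hUw : U.map w = ⊥ := by
    rw [Subgroup.map_eq_bot_iff, hwU]
  have hb : (U.map D).relIndex (U ⊓ N.ker) = (D.ker.map w).index := by
    rw [inf_eq_right.mpr hkerN_le, hkerN, MonoidHom.range_eq_map, Subgroup.relIndex_map_map,
      top_sup_eq, Subgroup.relIndex_top_right]
    rw [← Subgroup.index_map_eq (U ⊔ D.ker) hw (by rw [hwU]; exact le_sup_left),
      Subgroup.map_sup, hUw, bot_sup_eq]
  -- the `a`-side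
  have hA := lnIdx_relIndex_eq_mul w hF
  rw [hNU, hwU, inf_comm D.ker U, hab, hb] at hA
  have hmul : (N.range.map w).relIndex (D.ker.map w) * (D.ker.map w).index
      = (N.range.map w).index :=
    Subgroup.relIndex_mul_index (Subgroup.map_mono hF)
  have hidx : (N.range.map w).index = n := by
    have : N.range.map w = AddSubgroup.toSubgroup (AddSubgroup.zmultiples (n : ℤ)) := by
      ext z
      constructor
      · rintro ⟨_, ⟨x, rfl⟩, rfl⟩
        rw [hwN]
        show Multiplicative.toAdd (w x ^ n) ∈ AddSubgroup.zmultiples (n : ℤ)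
        rw [toAdd_pow, AddSubgroup.mem_zmultiples_iff]
        exact ⟨Multiplicative.toAdd (w x), by rw [smul_eq_mul, nsmul_eq_mul, mul_comm]⟩
      · intro hz
        have hz' : Multiplicative.toAdd z ∈ AddSubgroup.zmultiples (n : ℤ) := hz
        obtain ⟨k, hk⟩ := AddSubgroup.mem_zmultiples_iff.mp hz'
        obtain ⟨x, hx⟩ := hw (Multiplicative.ofAdd k)
        refine ⟨N x, ⟨x, rfl⟩, ?_⟩
        rw [hwN, hx]
        apply Multiplicative.toAdd.injective
        rw [toAdd_pow, toAdd_ofAdd, ← hk, smul_eq_mul, nsmul_eq_mul, mul_comm]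
    rw [this, AddSubgroup.index_toSubgroup, Int.index_zmultiples, Int.natAbs_natCast]
  rw [hA, hmul, hidx]

end Fermat.Agent.S55
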