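import Mathlib
import Fermat.Agent.S55.LocalNorm.HerbrandTransfer
import Fermat.Agent.S55.LocalNorm.CohTrivial
import Fermat.Agent.S55.LocalNorm.IndexAbstract

set_option autoImplicit false

/-!
# S55 / local norm index, leaf LN4b: `[Kˣ : N_{L/K} Lˣ] = [L : K]` for a cyclic extension of the
fraction field of a complete DVR with finite residue field

Assembled from LN1 (`ln_herbrand_transfer_sub`), LN3b (`ln_exists_cohTrivial`), LN4a
(`ln_norm_index_abstract`), Hilbert 90 (Mathlib) and the valuation of the DVR `B`.
-/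

namespace Fermat.Agent.S55

open IsLocalRing IsDedekindDomain


section valuation

variable (B L : Type*) [CommRing B] [IsDomain B] [IsDiscreteValuationRing B] [Field L]
  [Algebra B L] [IsFractionRing B L]

/-- The normalised valuation of the fraction field of a DVR, as a homomorphism on units. -/
noncomputable def lnVal : Lˣ →* Multiplicative ℤ :=
  (WithZero.unitsWithZeroEquiv (α := Multiplicative ℤ)).toMonoidHom.comp
    (Units.map ((IsDiscreteValuationRing.maximalIdeal B).valuation L : L →* WithZero (Multiplicative ℤ)))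

variable {L}

theorem lnVal_coe (x : Lˣ) :
    ((lnVal B L x : Multiplicative ℤ) : WithZero (Multiplicative ℤ)) =
      (IsDiscreteValuationRing.maximalIdeal B).valuation L (x : L) := by
  unfold lnVal
  simp

theorem lnVal_eq_one_iff (x : Lˣ) :
    lnVal B L x = 1 ↔ (IsDiscreteValuationRing.maximalIdeal B).valuation L (x : L) = 1 := by
  rw [← lnVal_coe, ← WithZero.coe_one, WithZero.coe_inj]

theorem lnVal_eq_iff (x y : Lˣ) :
    lnVal B L x = lnVal B L y ↔
      (IsDiscreteValuationRing.maximalIdeal B).valuation L (x : L) =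
        (IsDiscreteValuationRing.maximalIdeal B).valuation L (y : L) := by
  rw [← lnVal_coe, ← lnVal_coe, WithZero.coe_inj]

/-- A DVR has only one height one prime. -/
theorem ln_heightOneSpectrum_eq (v : HeightOneSpectrum B) :
    v = IsDiscreteValuationRing.maximalIdeal B := by
  apply HeightOneSpectrum.ext
  exact IsLocalRing.eq_maximalIdeal v.isMaximal

theorem ln_mem_range_of_valuation_le_one (x : L)
    (hx : (IsDiscreteValuationRing.maximalIdeal B).valuation L x ≤ 1) :
    x ∈ (algebraMap B L).range := by
  apply HeightOneSpectrum.mem_integers_of_valuation_le_one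
  intro v
  rw [ln_heightOneSpectrum_eq B v]
  exact hx

theorem lnVal_ker : (lnVal B L).ker = lnUnits B L := by
  ext x
  rw [MonoidHom.mem_ker, lnVal_eq_one_iff]
  constructor
  · intro hx
    obtain ⟨b, hb⟩ := ln_mem_range_of_valuation_le_one B (x : L) hx.le
    have hx' : (IsDiscreteValuationRing.maximalIdeal B).valuation L ((x⁻¹ : Lˣ) : L) = 1 := by
      rw [Units.val_inv_eq_inv_val, map_inv₀, hx, inv_one]
    obtain ⟨b', hb'⟩ := ln_mem_range_of_valuation_le_one B ((x⁻¹ : Lˣ) : L) hx'.le
    have hbb' : b * b' = 1 := by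
      apply IsFractionRing.injective B L
      rw [map_mul, hb, hb', map_one, ← Units.val_mul, mul_inv_cancel, Units.val_one]
    refine ⟨⟨b, b', hbb', by rw [mul_comm]; exact hbb'⟩, ?_⟩
    apply Units.ext
    exact hb
  · rintro ⟨u, rfl⟩
    have h1 := (IsDiscreteValuationRing.maximalIdeal B).valuation_le_one (K := L) (u : B)
    have h2 := (IsDiscreteValuationRing.maximalIdeal B).valuation_le_one (K := L) ((u⁻¹ : Bˣ) : B)
    have h3 : (IsDiscreteValuationRing.maximalIdeal B).valuation L (algebraMap B L (u : B)) *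
        (IsDiscreteValuationRing.maximalIdeal B).valuation L (algebraMap B L ((u⁻¹ : Bˣ) : B)) = 1 := by
      rw [← map_mul, ← map_mul, ← Units.val_mul, mul_inv_cancel, Units.val_one, map_one, map_one]
    show (IsDiscreteValuationRing.maximalIdeal B).valuation L (algebraMap B L (u : B)) = 1
    apply le_antisymm h1
    by_contra hlt
    push Not at hlt
    have := mul_lt_mul'' hlt (lt_of_le_of_ne h2 ?_) zero_le zero_le
    · rw [h3, one_mul] at this
      exact lt_irrefl _ this
    · intro h
      rw [h, mul_one] at h3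
      exact hlt.ne h3

theorem lnVal_surjective : Function.Surjective (lnVal B L) := by
  obtain ⟨π, hπ⟩ := (IsDiscreteValuationRing.maximalIdeal B).valuation_exists_uniformizer L
  have hπ0 : π ≠ 0 := by
    rintro rfl
    rw [map_zero] at hπ
    exact WithZero.zero_ne_coe hπ
  have h1 : lnVal B L (Units.mk0 π hπ0) = Multiplicative.ofAdd (-1 : ℤ) := by
    rw [← WithZero.coe_inj, lnVal_coe]
    exact hπ
  intro m
  refine ⟨(Units.mk0 π hπ0) ^ (-(Multiplicative.toAdd m)), ?_⟩
  rw [map_zpow, h1]
  rw [← ofAdd_zsmul]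
  simp

end valuation



section inv

variable {B : Type*} [CommRing B] [IsDomain B] [IsDiscreteValuationRing B]

theorem ln_intValuation_irreducible {ϖ : B} (h : Irreducible ϖ) :
    (IsDiscreteValuationRing.maximalIdeal B).intValuation ϖ = WithZero.exp (-1 : ℤ) :=
  HeightOneSpectrum.intValuation_singleton _ h.ne_zero h.maximalIdeal_eq

theorem ln_intValuation_unit (u : Bˣ) :
    (IsDiscreteValuationRing.maximalIdeal B).intValuation (u : B) = 1 := by
  rw [HeightOneSpectrum.intValuation_eq_one_iff]
  intro h
  exact (IsLocalRing.mem_maximalIdeal _).mp h u.isUnit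

/-- Ring automorphisms of a DVR preserve the valuation. -/
theorem ln_intValuation_ringEquiv (e : B ≃+* B) (b : B) :
    (IsDiscreteValuationRing.maximalIdeal B).intValuation (e b) =
      (IsDiscreteValuationRing.maximalIdeal B).intValuation b := by
  by_cases hb : b = 0
  · rw [hb, map_zero]
  obtain ⟨ϖ, hϖ⟩ := IsDiscreteValuationRing.exists_irreducible B
  obtain ⟨n, u, rfl⟩ := IsDiscreteValuationRing.eq_unit_mul_pow_irreducible hb hϖ
  have hϖ' : Irreducible (e ϖ) := (MulEquiv.irreducible_iff e.toMulEquiv).mpr hϖ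
  have hu : e (u : B) = ((Units.map (e : B →* B) u : Bˣ) : B) := rfl
  rw [map_mul, map_pow, map_mul, map_pow, map_mul, map_pow, hu, ln_intValuation_unit,
    ln_intValuation_unit, ln_intValuation_irreducible hϖ, ln_intValuation_irreducible hϖ']

end inv

section setting

variable {B : Type*} {L : Type*} [CommRing B] [IsDomain B] [IsDiscreteValuationRing B]
  [Field L] [Algebra B L] [IsFractionRing B L]

/-- A field automorphism inducing a ring automorphism of the DVR preserves the valuation. -/
theorem ln_valuation_aut (σ : L →+* L) (e : B ≃+* B)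
    (he : ∀ b : B, σ (algebraMap B L b) = algebraMap B L (e b)) (x : L) :
    (IsDiscreteValuationRing.maximalIdeal B).valuation L (σ x) =
      (IsDiscreteValuationRing.maximalIdeal B).valuation L x := by
  obtain ⟨a, b, _, rfl⟩ := IsFractionRing.div_surjective B x
  rw [map_div₀, he, he, map_div₀, map_div₀, HeightOneSpectrum.valuation_of_algebraMap,
    HeightOneSpectrum.valuation_of_algebraMap, HeightOneSpectrum.valuation_of_algebraMap,
    HeightOneSpectrum.valuation_of_algebraMap, ln_intValuation_ringEquiv,
    ln_intValuation_ringEquiv]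

end setting


section group

variable {X : Type*} [CommGroup X]

theorem ln_iterate_mem (s : X →* X) (H : Subgroup X) (hs : ∀ x ∈ H, s x ∈ H) (i : ℕ) {x : X}
    (hx : x ∈ H) : s^[i] x ∈ H := by
  induction i generalizing x with
  | zero => exact hx
  | succ i ih => rw [Function.iterate_succ_apply]; exact ih (hs x hx)

theorem lnNorm_mem (n : ℕ) (s : X →* X) (H : Subgroup X) (hs : ∀ x ∈ H, s x ∈ H) {x : X}
    (hx : x ∈ H) : lnNorm n s x ∈ H := by
  rw [lnNorm_apply]
  exact Subgroup.prod_mem H fun i _ => ln_iterate_mem s H hs i hx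

theorem lnDiv_mem (s : X →* X) (H : Subgroup X) (hs : ∀ x ∈ H, s x ∈ H) {x : X}
    (hx : x ∈ H) : lnDiv s x ∈ H := by
  rw [lnDiv_apply]
  exact H.div_mem (hs x hx) hx

end group

section setting

variable {K L : Type} [Field K] [Field L] [Algebra K L]

theorem lnAut_iterate (σ : L ≃ₐ[K] L) (i : ℕ) (x : Lˣ) :
    (((lnAut σ)^[i] x : Lˣ) : L) = (σ ^ i) (x : L) := by
  induction i generalizing x with
  | zero => rfl
  | succ i ih =>
    rw [Function.iterate_succ_apply, ih, lnAut_apply, pow_succ, AlgEquiv.mul_apply]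

/-- The abstract norm of `Lˣ` is the field norm. -/
theorem lnNorm_lnAut_coe [FiniteDimensional K L] [IsGalois K L] {σ : L ≃ₐ[K] L} (hσ : ∀ τ, τ ∈ Subgroup.zpowers σ) (x : Lˣ) :
    ((lnNorm (Module.finrank K L) (lnAut σ) x : Lˣ) : L) =
      algebraMap K L (Algebra.norm K (x : L)) := by
  classical
  rw [Algebra.norm_eq_prod_automorphisms, lnNorm_apply, Units.coe_prod]
  simp_rw [lnAut_iterate]
  have hord : orderOf σ = Module.finrank K L := by
    rw [orderOf_eq_card_of_forall_mem_zpowers hσ, IsGalois.card_aut_eq_finrank]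
  rw [← hord, ← IsCyclic.image_range_orderOf hσ, Finset.prod_image]
  intro i hi j hj hij
  exact pow_injOn_Iio_orderOf (Finset.mem_range.mp hi) (Finset.mem_range.mp hj) hij

/-- (LN4b) the local norm index. -/
theorem ln_index_norm_eq_finrank (A B : Type*) {K L : Type} [CommRing A] [IsDomain A]
    [IsDiscreteValuationRing A] [CommRing B] [IsDomain B] [IsDiscreteValuationRing B]
    [Field K] [Field L] [Algebra A K] [IsFractionRing A K] [Algebra B L] [IsFractionRing B L]
    [Algebra A B] [Algebra K L] [Algebra A L] [IsScalarTower A B L] [IsScalarTower A K L]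
    [IsIntegralClosure B A L] [FiniteDimensional K L] [IsGalois K L]
    [IsAdicComplete (maximalIdeal A) A] [Finite (ResidueField A)]
    [IsCyclic (L ≃ₐ[K] L)] :
    (Units.map (Algebra.norm K : L →* K)).range.index = Module.finrank K L := by
  classical
  obtain ⟨σ, hσ⟩ := IsCyclic.exists_generator (α := L ≃ₐ[K] L)
  have hnpos : 0 < Module.finrank K L := Module.finrank_pos
  have hord : orderOf σ = Module.finrank K L := by
    rw [orderOf_eq_card_of_forall_mem_zpowers hσ, IsGalois.card_aut_eq_finrank]
  -- `s^n = 1`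
  have hs : ∀ x, (lnAut σ)^[Module.finrank K L] x = x := by
    intro x
    apply Units.ext
    rw [lnAut_iterate, ← hord, pow_orderOf_eq_one]
    rfl
  have hnorm := lnNorm_lnAut_coe hσ
  -- `D ∘ N = 1`, `N ∘ D = 1`
  have hDN : ∀ x, lnDiv (lnAut σ) (lnNorm (Module.finrank K L) (lnAut σ) x) = 1 := by
    intro x
    rw [lnDiv_apply, div_eq_one]
    apply Units.ext
    rw [lnAut_apply, hnorm, AlgEquiv.commutes]
  have hND : ∀ x, lnNorm (Module.finrank K L) (lnAut σ) (lnDiv (lnAut σ) x) = 1 := by
    intro x
    rw [lnDiv_apply, map_div, div_eq_one]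
    apply Units.ext
    rw [hnorm, hnorm, lnAut_apply, Algebra.norm_eq_of_algEquiv]
  -- Hilbert 90
  have h90 : ∀ x, lnNorm (Module.finrank K L) (lnAut σ) x = 1 → ∃ y, lnDiv (lnAut σ) y = x := by
    intro x hx
    have h1 : Algebra.norm K (x : L) = 1 := by
      apply (algebraMap K L).injective
      rw [← hnorm, hx, map_one, Units.val_one]
    obtain ⟨y, hy⟩ := groupCohomology.exists_div_of_norm_eq_one hσ h1
    refine ⟨y⁻¹, ?_⟩
    apply Units.ext
    rw [lnDiv_apply, map_inv, inv_div_inv, Units.val_div_eq_div_val, lnAut_apply]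
    exact hy
  -- the valuation
  have hws : ∀ x, lnVal B L (lnAut σ x) = lnVal B L x := by
    intro x
    rw [lnVal_eq_iff]
    exact ln_valuation_aut (σ : L →+* L) (galRestrict A K L B σ).toRingEquiv
      (fun b => (algebraMap_galRestrict_apply A σ b).symm) x
  have hfix : ∃ x, lnAut σ x = x ∧ lnVal B L x ≠ 1 := by
    obtain ⟨ϖ, hϖ⟩ := IsDiscreteValuationRing.exists_irreducible A
    have hy0 : algebraMap A K ϖ ≠ 0 := by
      intro h
      exact hϖ.ne_zero ((IsFractionRing.injective A K) (h.trans (map_zero _).symm))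
    have hx0 : algebraMap K L (algebraMap A K ϖ) ≠ 0 := by
      intro h
      exact hy0 ((algebraMap K L).injective (h.trans (map_zero _).symm))
    refine ⟨Units.mk0 _ hx0, ?_, ?_⟩
    · apply Units.ext
      rw [lnAut_apply]
      exact σ.commutes _
    · intro h
      have hmem : Units.mk0 _ hx0 ∈ lnUnits B L := by
        rw [← lnVal_ker, MonoidHom.mem_ker]; exact h
      obtain ⟨u, hu⟩ := hmem
      have hu' : algebraMap B L ((u⁻¹ : Bˣ) : B) = algebraMap K L (algebraMap A K ϖ)⁻¹ := by
        have h1 : algebraMap B L (u : B) = algebraMap K L (algebraMap A K ϖ) :=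
          congrArg Units.val hu
        have h2 : algebraMap B L (u : B) * algebraMap B L ((u⁻¹ : Bˣ) : B) = 1 := by
          rw [← map_mul, ← Units.val_mul, mul_inv_cancel, Units.val_one, map_one]
        rw [map_inv₀, ← h1]
        exact eq_inv_of_mul_eq_one_right h2
      have hint : IsIntegral A (algebraMap B L ((u⁻¹ : Bˣ) : B)) :=
        (IsIntegralClosure.isIntegral_iff (A := B)).mpr ⟨_, rfl⟩
      rw [hu', isIntegral_algebraMap_iff (algebraMap K L).injective,
        IsIntegrallyClosed.isIntegral_iff] at hint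
      obtain ⟨a, ha⟩ := hint
      apply hϖ.not_isUnit
      refine IsUnit.of_mul_eq_one a ?_
      apply IsFractionRing.injective A K
      rw [map_mul, ha, map_one, mul_inv_cancel₀ hy0]
  -- the Herbrand quotient of the units
  obtain ⟨V, hVU, hVidx, hVs, hV0, hV1⟩ := ln_exists_cohTrivial A (B := B) σ hσ
  have hsU : ∀ x ∈ lnUnits B L, lnAut σ x ∈ lnUnits B L := by
    rintro x ⟨u, rfl⟩
    refine ⟨Units.map ((galRestrict A K L B σ : B ≃ₐ[A] B) : B →* B) u, ?_⟩
    apply Units.ext
    exact algebraMap_galRestrict_apply A σ (u : B)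
  have hU := ln_herbrand_transfer_sub (lnDiv (lnAut σ)) (lnNorm (Module.finrank K L) (lnAut σ))
    hDN hND (lnUnits B L) V hVU hVidx
    (fun u hu => lnDiv_mem _ _ hsU hu) (fun u hu => lnNorm_mem _ _ _ hsU hu)
    (fun v hv => lnDiv_mem _ _ hVs hv) (fun v hv => lnNorm_mem _ _ _ hVs hv)
    (fun v hv h => hV0 v hv (by rwa [lnDiv_apply, div_eq_one] at h))
    hV1
  have key := ln_norm_index_abstract (lnAut σ) (Module.finrank K L) hnpos hs (lnUnits B L)
    (lnVal B L) (lnVal_ker B) (lnVal_surjective B) hws hfix h90 hU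
  -- translation to `Kˣ`
  let ι : Kˣ →* Lˣ := Units.map (algebraMap K L : K →* L)
  have hι : Function.Injective ι := Units.map_injective (algebraMap K L).injective
  have hrange : (lnNorm (Module.finrank K L) (lnAut σ)).range =
      (Units.map (Algebra.norm K : L →* K)).range.map ι := by
    rw [← MonoidHom.range_comp]
    congr 1
    ext x
    exact hnorm x
  have hker : (lnDiv (lnAut σ)).ker = (⊤ : Subgroup Kˣ).map ι := by
    ext x
    rw [MonoidHom.mem_ker, lnDiv_apply, div_eq_one, Subgroup.mem_map]
    constructor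
    · intro hx
      have hfixed : ∀ τ : L ≃ₐ[K] L, τ (x : L) = (x : L) := by
        intro τ
        obtain ⟨k, rfl⟩ := Subgroup.mem_zpowers_iff.mp (hσ τ)
        have h1 : σ (x : L) = (x : L) := congrArg Units.val hx
        have h2 : (σ⁻¹) (x : L) = (x : L) := by
          conv_lhs => rw [← h1]
          exact σ.symm_apply_apply _
        induction k using Int.induction_on with
        | zero => rfl
        | succ i ih => rw [zpow_add_one, AlgEquiv.mul_apply, h1, ih]
        | pred i ih => rw [zpow_sub_one, AlgEquiv.mul_apply, h2, ih]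
      obtain ⟨y, hy⟩ := (IsGalois.mem_range_algebraMap_iff_fixed (x : L)).mpr hfixed
      have hy0 : y ≠ 0 := by
        rintro rfl
        rw [map_zero] at hy
        exact x.ne_zero hy.symm
      exact ⟨Units.mk0 y hy0, Subgroup.mem_top _, Units.ext hy⟩
    · rintro ⟨y, _, rfl⟩
      apply Units.ext
      rw [lnAut_apply]
      exact σ.commutes _
  rw [hrange, hker, Subgroup.relIndex_map_map_of_injective _ _ hι, Subgroup.relIndex_top_right]
    at key
  exact key

end setting

end Fermat.Agent.S55
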